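/-
CELL-S / GS-PETERSSON-REDUCED, algebra half (helper57, second seat for helper83):
from `IsReduced (heckeAlgebra N 2 S)` (the Petersson output) to `IsReduced T` for every
`HeckeGaloisRepDatum`, and the `K̄`-points of `T` separate elements.

* `formallyUnramified_of_isReduced_of_finite` : a reduced finite-dimensional algebra over a
  perfect field is formally unramified (= étale).
* `isReduced_rat_tensor`                      : `ℚ ⊗[ℤ] A` is reduced when `A` is.
* `isReduced_of_adjoin`                       : a `K`-algebra (`K` a field of characteristic `0`)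
  generated by the image of a reduced ring `A`, finite over `ℤ`, is reduced and finite over `K`.
* `isReduced_of_datum`, `exists_algHom_ne_zero` : the two exports.
-/
import Mathlib
import Fermat.Prelude.Def_CuspForm_HeckeGaloisRepDatum

set_option autoImplicit false
set_option linter.unusedSectionVars false

open scoped TensorProduct

noncomputable section

namespace Fermat.Agent.GS.Pet.DatumAlg

section Field

/-- a reduced finite-dimensional commutative algebra over a perfect field is formally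
unramified. -/
theorem formallyUnramified_of_isReduced_of_finite (k B : Type*) [Field k] [PerfectField k]
    [CommRing B] [Algebra k B] [Module.Finite k B] [IsReduced B] :
    Algebra.FormallyUnramified k B := by
  have hart : IsArtinianRing B := IsArtinianRing.of_finite k B
  let e : B ≃ₐ[k] ∀ I : MaximalSpectrum B, B ⧸ I.asIdeal :=
    (IsArtinianRing.equivPi B).restrictScalars k
  have hpi : Algebra.FormallyUnramified k (∀ I : MaximalSpectrum B, B ⧸ I.asIdeal) := by
    rw [Algebra.FormallyUnramified.pi_iff]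
    intro I
    let _ : Field (B ⧸ I.asIdeal) := Ideal.Quotient.field I.asIdeal
    have : Algebra.IsAlgebraic k (B ⧸ I.asIdeal) := Algebra.IsAlgebraic.of_finite k _
    have : Algebra.IsSeparable k (B ⧸ I.asIdeal) := inferInstance
    exact Algebra.FormallyUnramified.of_isSeparable k (B ⧸ I.asIdeal)
  exact Algebra.FormallyUnramified.of_equiv e.symm

end Field

section Rat

variable (A : Type*) [CommRing A]

/-- `ℚ ⊗[ℤ] A` is reduced when `A` is. -/
theorem isReduced_rat_tensor [IsReduced A] : IsReduced (ℚ ⊗[ℤ] A) := by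
  have hbc : IsBaseChange ℚ (TensorProduct.mk ℤ ℚ A 1) := TensorProduct.isBaseChange ℤ A ℚ
  have hloc : IsLocalizedModule (nonZeroDivisors ℤ) (TensorProduct.mk ℤ ℚ A 1) :=
    (isLocalizedModule_iff_isBaseChange (nonZeroDivisors ℤ) ℚ _).mpr hbc
  constructor
  intro x hx
  obtain ⟨n, hn⟩ := hx
  rcases Nat.eq_zero_or_pos n with rfl | hpos
  · rw [pow_zero] at hn
    rw [← mul_one x, hn, mul_zero]
  obtain ⟨j, rfl⟩ : ∃ j, n = j + 1 := ⟨n - 1, by omega⟩
  obtain ⟨⟨a, s⟩, hs⟩ := IsLocalizedModule.surj (nonZeroDivisors ℤ)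
    (TensorProduct.mk ℤ ℚ A 1) x
  -- `s • x = 1 ⊗ a`
  have hs' : (s : ℤ) • x = (1 : ℚ) ⊗ₜ[ℤ] a := hs
  have h1 : ((1 : ℚ) ⊗ₜ[ℤ] a) ^ (j + 1) = 0 := by
    rw [← hs', smul_pow, hn, smul_zero]
  have h2 : (1 : ℚ) ⊗ₜ[ℤ] (a ^ (j + 1)) = 0 := by
    rw [← h1, Algebra.TensorProduct.tmul_pow, one_pow]
  obtain ⟨m, hm⟩ := (IsLocalizedModule.eq_zero_iff (nonZeroDivisors ℤ)
    (TensorProduct.mk ℤ ℚ A 1)).1 h2
  have h3 : ((m : ℤ) • a) ^ (j + 1) = 0 := by
    rw [smul_pow, pow_succ, mul_smul]
    have : (m : ℤ) • a ^ (j + 1) = 0 := hm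
    rw [this, smul_zero]
  have h4 : (m : ℤ) • a = 0 := IsReduced.eq_zero _ ⟨j + 1, h3⟩
  have h5 : (1 : ℚ) ⊗ₜ[ℤ] a = 0 :=
    (IsLocalizedModule.eq_zero_iff (nonZeroDivisors ℤ) (TensorProduct.mk ℤ ℚ A 1)).2 ⟨m, h4⟩
  rw [h5] at hs'
  have hs0 : ((s : ℤ) : ℚ) ≠ 0 := by
    exact_mod_cast nonZeroDivisors.coe_ne_zero s
  have : x = ((s : ℤ) : ℚ)⁻¹ • (((s : ℤ) : ℚ) • x) := by
    rw [smul_smul, inv_mul_cancel₀ hs0, one_smul]
  rw [this, Int.cast_smul_eq_zsmul, hs', smul_zero]

end Rat

section Adjoin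

variable (A : Type*) [CommRing A] [IsReduced A] [Module.Finite ℤ A]
  (K : Type*) [Field K] [CharZero K]

/-- `K ⊗[ℤ] A` is étale over `K`. -/
theorem formallyUnramified_tensor : Algebra.FormallyUnramified K (K ⊗[ℤ] A) := by
  have h1 : IsReduced (ℚ ⊗[ℤ] A) := isReduced_rat_tensor A
  have h2 : Algebra.FormallyUnramified ℚ (ℚ ⊗[ℤ] A) :=
    formallyUnramified_of_isReduced_of_finite ℚ _
  have h3 : Algebra.FormallyUnramified K (K ⊗[ℚ] (ℚ ⊗[ℤ] A)) := inferInstance
  exact Algebra.FormallyUnramified.of_equiv (Algebra.TensorProduct.cancelBaseChange ℤ ℚ K K A)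

variable {A K} {C : Type*} [CommRing C] [Algebra K C]

/-- the `K`-algebra hom `K ⊗[ℤ] A → C` attached to a ring hom `A → C`. -/
def tensorLift (φ : A →+* C) : K ⊗[ℤ] A →ₐ[K] C :=
  Algebra.TensorProduct.lift (Algebra.ofId K C) φ.toIntAlgHom (fun _ _ => Commute.all _ _)

@[simp]
theorem tensorLift_tmul (φ : A →+* C) (c : K) (a : A) :
    tensorLift φ (c ⊗ₜ[ℤ] a) = c • φ a := by
  simp [tensorLift, Algebra.ofId_apply, Algebra.smul_def]

theorem tensorLift_surjective (φ : A →+* C) (hφ : Algebra.adjoin K (Set.range φ) = ⊤) :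
    Function.Surjective (tensorLift (K := K) φ) := by
  rw [← AlgHom.range_eq_top, eq_top_iff, ← hφ]
  refine Algebra.adjoin_le ?_
  rintro _ ⟨a, rfl⟩
  exact ⟨(1 : K) ⊗ₜ[ℤ] a, by simp⟩

/-- **(A1)** a `K`-algebra generated by the image of a reduced ring finite over `ℤ` is étale,
finite and reduced. -/
theorem formallyUnramified_of_adjoin (φ : A →+* C) (hφ : Algebra.adjoin K (Set.range φ) = ⊤) :
    Algebra.FormallyUnramified K C := by
  have := formallyUnramified_tensor A K
  exact Algebra.FormallyUnramified.of_surjective (tensorLift φ) (tensorLift_surjective φ hφ)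

theorem finite_of_adjoin (φ : A →+* C) (hφ : Algebra.adjoin K (Set.range φ) = ⊤) :
    Module.Finite K C :=
  Module.Finite.of_surjective (tensorLift (K := K) φ).toLinearMap (tensorLift_surjective φ hφ)

theorem isReduced_of_adjoin (φ : A →+* C) (hφ : Algebra.adjoin K (Set.range φ) = ⊤) :
    IsReduced C := by
  have := formallyUnramified_of_adjoin φ hφ
  have := finite_of_adjoin φ hφ
  exact Algebra.FormallyUnramified.isReduced_of_field K C

end Adjoin

section BaseChange

variable (K : Type*) [Field K] {O T A : Type*} [CommRing O] [Algebra O K] [CommRing T]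
  [Algebra O T] [CommRing A]

/-- the composite `A → T → K ⊗[O] T`. -/
def toTensor (π : A →+* T) : A →+* K ⊗[O] T :=
  (Algebra.TensorProduct.includeRight : T →ₐ[O] K ⊗[O] T).toRingHom.comp π

@[simp]
theorem toTensor_apply (π : A →+* T) (a : A) : toTensor K π a = (1 : K) ⊗ₜ[O] π a := rfl

theorem adjoin_toTensor_eq_top (π : A →+* T) (hπ : Algebra.adjoin O (Set.range π) = ⊤) :
    Algebra.adjoin K (Set.range (toTensor K (O := O) π)) = ⊤ := by
  rw [eq_top_iff]
  rintro x -
  have key : ∀ t : T, (1 : K) ⊗ₜ[O] t ∈ Algebra.adjoin K (Set.range (toTensor K (O := O) π)) := by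
    intro t
    have ht : t ∈ Algebra.adjoin O (Set.range π) := by rw [hπ]; trivial
    induction ht using Algebra.adjoin_induction with
    | mem t ht =>
      obtain ⟨a, rfl⟩ := ht
      exact Algebra.subset_adjoin ⟨a, rfl⟩
    | algebraMap o =>
      have : (1 : K) ⊗ₜ[O] (algebraMap O T o) =
          algebraMap K (K ⊗[O] T) (algebraMap O K o) := by
        rw [Algebra.TensorProduct.algebraMap_apply, Algebra.algebraMap_self, RingHom.id_apply,
          Algebra.algebraMap_eq_smul_one o, Algebra.algebraMap_eq_smul_one o,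
          TensorProduct.smul_tmul]
      rw [this]
      exact Subalgebra.algebraMap_mem _ _
    | add t t' _ _ h h' =>
      rw [TensorProduct.tmul_add]
      exact Subalgebra.add_mem _ h h'
    | mul t t' _ _ h h' =>
      have : (1 : K) ⊗ₜ[O] (t * t') = ((1 : K) ⊗ₜ[O] t) * ((1 : K) ⊗ₜ[O] t') := by
        rw [Algebra.TensorProduct.tmul_mul_tmul, one_mul]
      rw [this]
      exact Subalgebra.mul_mem _ h h'
  induction x using TensorProduct.induction_on with
  | zero => exact Subalgebra.zero_mem _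
  | tmul c t =>
    have : c ⊗ₜ[O] t = c • ((1 : K) ⊗ₜ[O] t) := by
      rw [TensorProduct.smul_tmul', smul_eq_mul, mul_one]
    rw [this]
    exact Subalgebra.smul_mem _ (key t) c
  | add x y hx hy => exact Subalgebra.add_mem _ hx hy

end BaseChange

section Abstract

variable {A : Type*} [CommRing A] [IsReduced A] [Module.Finite ℤ A]
  {O : Type*} [CommRing O] [IsDomain O] [CharZero O]
  {T : Type*} [CommRing T] [Algebra O T] [Module.Flat O T]

theorem charZero_fractionRing : CharZero (FractionRing O) :=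
  charZero_of_injective_algebraMap (IsFractionRing.injective O (FractionRing O))

theorem includeRight_injective' :
    Function.Injective (Algebra.TensorProduct.includeRight : T →ₐ[O] FractionRing O ⊗[O] T) :=
  Algebra.TensorProduct.includeRight_injective (IsFractionRing.injective O (FractionRing O))

theorem isReduced_tensor_of_adjoin (π : A →+* T) (hπ : Algebra.adjoin O (Set.range π) = ⊤) :
    IsReduced (FractionRing O ⊗[O] T) := by
  have := charZero_fractionRing (O := O)
  exact isReduced_of_adjoin (K := FractionRing O) (toTensor (FractionRing O) π)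
    (adjoin_toTensor_eq_top _ π hπ)

theorem finite_tensor_of_adjoin (π : A →+* T) (hπ : Algebra.adjoin O (Set.range π) = ⊤) :
    Module.Finite (FractionRing O) (FractionRing O ⊗[O] T) := by
  have := charZero_fractionRing (O := O)
  exact finite_of_adjoin (K := FractionRing O) (toTensor (FractionRing O) π)
    (adjoin_toTensor_eq_top _ π hπ)

/-- **(A2), abstract form.** -/
theorem isReduced_of_adjoin_range (π : A →+* T) (hπ : Algebra.adjoin O (Set.range π) = ⊤) :
    IsReduced T := by
  have := isReduced_tensor_of_adjoin π hπ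
  exact isReduced_of_injective
    (Algebra.TensorProduct.includeRight : T →ₐ[O] FractionRing O ⊗[O] T)
    includeRight_injective'

/-- **(A3), abstract form**: the `K̄`-points of `T` separate elements. -/
theorem exists_algHom_ne_zero_of_adjoin_range (π : A →+* T)
    (hπ : Algebra.adjoin O (Set.range π) = ⊤) {x : T} (hx : x ≠ 0) :
    ∃ χ : T →ₐ[O] AlgebraicClosure (FractionRing O), χ x ≠ 0 := by
  have hred := isReduced_tensor_of_adjoin π hπ
  have hfin := finite_tensor_of_adjoin π hπ
  have hart : IsArtinianRing (FractionRing O ⊗[O] T) :=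
    IsArtinianRing.of_finite (FractionRing O) _
  have hx' : ((1 : FractionRing O) ⊗ₜ[O] x : FractionRing O ⊗[O] T) ≠ 0 := by
    intro h
    apply hx
    apply includeRight_injective' (O := O) (T := T)
    rw [map_zero]
    exact h
  obtain ⟨m, hm⟩ : ∃ m : MaximalSpectrum (FractionRing O ⊗[O] T),
      ((1 : FractionRing O) ⊗ₜ[O] x) ∉ m.asIdeal := by
    by_contra hcon
    push Not at hcon
    apply hx'
    apply (IsArtinianRing.equivPi (FractionRing O ⊗[O] T)).injective
    funext m
    rw [IsArtinianRing.equivPi_apply, map_zero]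
    exact Ideal.Quotient.eq_zero_iff_mem.2 (hcon m)
  let _ : Field ((FractionRing O ⊗[O] T) ⧸ m.asIdeal) := Ideal.Quotient.field m.asIdeal
  have halg : Algebra.IsAlgebraic (FractionRing O) ((FractionRing O ⊗[O] T) ⧸ m.asIdeal) :=
    Algebra.IsAlgebraic.of_finite _ _
  have htf : Module.IsTorsionFree (FractionRing O) ((FractionRing O ⊗[O] T) ⧸ m.asIdeal) := by
    rw [Module.isTorsionFree_iff_smul_eq_zero]
    intro r y hry
    by_cases hr : r = 0
    · exact Or.inl hr
    · right
      have : y = r⁻¹ • (r • y) := by rw [smul_smul, inv_mul_cancel₀ hr, one_smul]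
      rw [this, hry, smul_zero]
  let ι : ((FractionRing O ⊗[O] T) ⧸ m.asIdeal) →ₐ[FractionRing O]
      AlgebraicClosure (FractionRing O) := IsAlgClosed.lift
  refine ⟨(ι.restrictScalars O).comp
    (((Ideal.Quotient.mkₐ (FractionRing O) m.asIdeal).restrictScalars O).comp
      (Algebra.TensorProduct.includeRight : T →ₐ[O] FractionRing O ⊗[O] T)), ?_⟩
  show ι (Ideal.Quotient.mk m.asIdeal ((1 : FractionRing O) ⊗ₜ[O] x)) ≠ 0
  rw [Ne, map_eq_zero_iff ι ι.toRingHom.injective, Ideal.Quotient.eq_zero_iff_mem]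
  exact hm

end Abstract

section Datum

open CuspForm IsLocalRing

variable {N : ℕ} [NeZero N] {S : Set ℕ}
  {𝒪 : Type} [CommRing 𝒪] [IsDomain 𝒪] [IsDiscreteValuationRing 𝒪]
  [IsAdicComplete (maximalIdeal 𝒪) 𝒪] [CharZero 𝒪]
  {θ : heckeAlgebra N 2 S →+* ResidueField 𝒪}
  {T : Type} [CommRing T] [IsLocalRing T] [IsNoetherianRing T]
  [IsAdicComplete (maximalIdeal T) T] [Algebra 𝒪 T] [IsLocalHom (algebraMap 𝒪 T)]
  [Module.Finite 𝒪 T] [Module.Free 𝒪 T]

/-- **(A2)** the Hecke ring of a Hecke–Galois datum is reduced as soon as the (anemic) Hecke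
algebra is. -/
theorem isReduced_of_datum (hred : IsReduced (heckeAlgebra N 2 S))
    (hfin : Module.Finite ℤ (heckeAlgebra N 2 S))
    (H : HeckeGaloisRepDatum N S 𝒪 θ T) : IsReduced T :=
  isReduced_of_adjoin_range (O := 𝒪) H.π H.adjoin_range_π

/-- **(A3)** the `K̄`-points of `T` separate its elements. -/
theorem exists_algHom_ne_zero (hred : IsReduced (heckeAlgebra N 2 S))
    (hfin : Module.Finite ℤ (heckeAlgebra N 2 S))
    (H : HeckeGaloisRepDatum N S 𝒪 θ T) {x : T} (hx : x ≠ 0) :
    ∃ χ : T →ₐ[𝒪] AlgebraicClosure (FractionRing 𝒪), χ x ≠ 0 :=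
  exists_algHom_ne_zero_of_adjoin_range (O := 𝒪) H.π H.adjoin_range_π hx

/-- `T ↪ ∏_χ K̄`. -/
theorem eq_zero_of_forall_algHom (hred : IsReduced (heckeAlgebra N 2 S))
    (hfin : Module.Finite ℤ (heckeAlgebra N 2 S))
    (H : HeckeGaloisRepDatum N S 𝒪 θ T) {x : T}
    (hx : ∀ χ : T →ₐ[𝒪] AlgebraicClosure (FractionRing 𝒪), χ x = 0) : x = 0 := by
  by_contra h
  obtain ⟨χ, hχ⟩ := exists_algHom_ne_zero hred hfin H h
  exact hχ (hx χ)

end Datum

end Fermat.Agent.GS.Pet.DatumAlg
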