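/-
CELL-S / GS-PETERSSON-REDUCED (helper83), file 2: **the standard fundamental domain of `SL₂(ℤ)`
as a measure-theoretic fundamental domain**.

* `null_of_coe_image_null` : a subset of `ℍ` whose image in `ℂ` is Lebesgue-null is null;
* `volume_fd_diff_fdo` : the boundary `𝒟 \ 𝒟ᵒ` is null;
* `isFundamentalDomain_fd : IsFundamentalDomain (bar ℍ 𝒮ℒ) 𝒟 volume`;
* `volume_fd_lt_top : volume 𝒟 < ∞`;
* `isOpenPosMeasure_upperHalfPlane`.
-/
import Mathlib
import Fermat.Agent.GS.Pet.FDGen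

set_option autoImplicit false
set_option linter.unusedSectionVars false

open MeasureTheory Set Function UpperHalfPlane
open scoped Pointwise Modular MatrixGroups ENNReal NNReal

namespace Fermat.Agent.GS.Pet

local notation "𝔾" => GL (Fin 2) ℝ

/-- a subset of `ℍ` whose image in `ℂ` is Lebesgue-null is null for the hyperbolic measure -/
theorem null_of_coe_image_null {s : Set ℍ} (hs : volume ((↑) '' s : Set ℂ) = 0) :
    volume s = 0 := by
  rw [UpperHalfPlane.volume_eq_lintegral]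
  exact setLIntegral_measure_zero _ _ hs

theorem volume_re_eq (c : ℝ) : volume {z : ℂ | z.re = c} = 0 := by
  have h : {z : ℂ | z.re = c} = Complex.measurableEquivRealProd ⁻¹' ({c} ×ˢ univ) := by
    ext z
    simp [Complex.measurableEquivRealProd]
  rw [h, Complex.volume_preserving_equiv_real_prod.measure_preimage
    ((measurableSet_singleton c).prod MeasurableSet.univ).nullMeasurableSet]
  rw [Measure.volume_eq_prod, Measure.prod_prod, Real.volume_singleton, zero_mul]

theorem volume_normSq_eq_one : volume {z : ℂ | Complex.normSq z = 1} = 0 := by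
  have h : {z : ℂ | Complex.normSq z = 1} = Metric.sphere (0 : ℂ) 1 := by
    ext z
    simp only [mem_ofPred_eq, mem_sphere_iff_norm, sub_zero]
    rw [Complex.normSq_eq_norm_sq]
    constructor
    · intro h1
      have h0 : 0 ≤ ‖z‖ := norm_nonneg z
      nlinarith
    · intro h1
      rw [h1]
      norm_num
  rw [h]
  exact Measure.addHaar_sphere volume (0 : ℂ) 1

/-- the boundary of the standard fundamental domain is null -/
theorem volume_fd_diff_fdo : volume (𝒟 \ 𝒟ᵒ) = 0 := by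
  apply null_of_coe_image_null
  have hsub : ((↑) '' (𝒟 \ 𝒟ᵒ) : Set ℂ) ⊆
      {z : ℂ | Complex.normSq z = 1} ∪ ({z : ℂ | z.re = 1 / 2} ∪ {z : ℂ | z.re = -(1 / 2)}) := by
    rintro _ ⟨z, ⟨hz, hz'⟩, rfl⟩
    have h1 : 1 ≤ Complex.normSq (z : ℂ) := hz.1
    have h2 : |z.re| ≤ 1 / 2 := hz.2
    by_contra hcon
    simp only [mem_union, mem_ofPred_eq, not_or] at hcon
    apply hz'
    refine ⟨lt_of_le_of_ne h1 (Ne.symm hcon.1), lt_of_le_of_ne h2 ?_⟩
    intro habs
    rcases abs_eq (by norm_num : (0 : ℝ) ≤ 1 / 2) |>.1 habs with h | h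
    · exact hcon.2.1 h
    · exact hcon.2.2 h
  refine measure_mono_null hsub ?_
  rw [measure_union_null_iff, measure_union_null_iff]
  exact ⟨volume_normSq_eq_one, volume_re_eq _, volume_re_eq _⟩

/-- the action of `SL(2,ℤ)` through `GL(2,ℝ)` -/
theorem mapGL_smul (g : SL(2, ℤ)) (z : ℍ) :
    (Matrix.SpecialLinearGroup.mapGL ℝ g : 𝔾) • z = g • z := rfl

/-- elements of `𝒮ℒ` not acting trivially move `𝒟ᵒ` off `𝒟` -/
theorem smul_fd_inter_fd_subset {g : 𝔾} (hg : g ∈ 𝒮ℒ) (hne : ¬ ∀ z : ℍ, g • z = z) :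
    (g • (𝒟 : Set ℍ)) ∩ 𝒟 ⊆ 𝒟 \ 𝒟ᵒ := by
  obtain ⟨γ, rfl⟩ := hg
  rintro z ⟨hz1, hz2⟩
  refine ⟨hz2, fun hzo => hne ?_⟩
  rw [mem_smul_set_iff_inv_smul_mem, ← map_inv, mapGL_smul] at hz1
  rcases ModularGroup.eq_one_or_neg_one_of_mem_fdo_mem_fd hzo hz1 with h | h
  · have hγ : γ = 1 := by rw [← inv_inv γ, h, inv_one]
    intro w
    rw [hγ, map_one, one_smul]
  · have hγ : γ = -1 := by
      rw [← inv_inv γ, h]
      ext i j
      fin_cases i <;> fin_cases j <;> simp
    intro w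
    rw [hγ, mapGL_smul, ModularGroup.SL_neg_smul, one_smul]

instance countable_SL2Z : Countable SL(2, ℤ) := by
  have : Countable (Matrix (Fin 2) (Fin 2) ℤ) := inferInstanceAs (Countable (Fin 2 → Fin 2 → ℤ))
  exact Subtype.countable

instance countable_SLrange : Countable (𝒮ℒ : Subgroup 𝔾) := by
  have : Function.Surjective
      (fun γ : SL(2, ℤ) => (⟨Matrix.SpecialLinearGroup.mapGL ℝ γ, ⟨γ, rfl⟩⟩ : (𝒮ℒ : Subgroup 𝔾))) := by
    rintro ⟨_, γ, rfl⟩
    exact ⟨γ, rfl⟩
  exact this.countable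

/-- **the standard fundamental domain is a fundamental domain** for the image of `SL(2,ℤ)` in the
permutations of `ℍ` -/
theorem isFundamentalDomain_fd :
    IsFundamentalDomain (bar ℍ (𝒮ℒ : Subgroup 𝔾)) (𝒟 : Set ℍ) volume := by
  refine IsFundamentalDomain.mk'' ?_ ?_ ?_ ?_
  · exact ModularGroup.isClosed_fd.measurableSet.nullMeasurableSet
  · refine Filter.Eventually.of_forall fun z => ?_
    obtain ⟨γ, hγ⟩ := ModularGroup.exists_smul_mem_fd z
    exact ⟨barMk (Matrix.SpecialLinearGroup.mapGL ℝ γ) ⟨γ, rfl⟩, hγ⟩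
  · intro g hg
    obtain ⟨γ, hγ, rfl⟩ := exists_rep_bar g
    have hne : ¬ ∀ z : ℍ, γ • z = z := fun h => hg ((barMk_eq_one_iff γ hγ).2 h)
    rw [barMk_smul_set]
    exact measure_mono_null (smul_fd_inter_fd_subset hγ hne) volume_fd_diff_fdo
  · intro g
    exact (measurePreserving_smul g volume).quasiMeasurePreserving

end Fermat.Agent.GS.Pet
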