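/-
CELL-S / GS-PETERSSON-REDUCED (helper83), file 4: **coset bookkeeping for `T_p`, `p ∤ N`**.

The right cosets `Γ₀(N) \ Γ₀(N) α Γ₀(N)`, `α = diag(1,p)`, are indexed by `ℙ¹(𝔽_p)` through the
Prelude's `heckeRep p x` and `heckeRep_mul` (frozen accepted proof of the `Γ₀(N)`-invariance of
`T_p f`).  Here:

* `ract g x := redMatrix p g • x` is a RIGHT action of `SL(2,ℤ)` on `ℙ¹(𝔽_p)` (`ract_mul`);
* `stab N x` : the stabiliser of `x` in `Γ₀(N)`;
* `isReps_of_transitive` : sections of the orbit map give representatives of `Γ₀(N) / stab N x`;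
* `exists_ract_zero`, `exists_ract_infty` : `Γ₀(N)` is transitive on `ℙ¹(𝔽_p)` for `p ∤ N`;
* `mem_stab_infty_iff_conj` : `stab N ∞ = α (stab N 0) α⁻¹`;
* `isReps_quotient_out` : abstract representatives of `SL(2,ℤ) / H`;
* `kerLE_*` : the elements acting trivially on `ℍ` are `±1`.
-/
import Mathlib
import Fermat.Prelude.Sol.S_ModularForm_heckeT_slash_eq_self_of_mem_Gamma0
import Fermat.Agent.GS.Pet.FDModular

set_option autoImplicit false
set_option linter.unusedSectionVars false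

open MeasureTheory Set Function UpperHalfPlane
open Matrix.SpecialLinearGroup CongruenceSubgroup ModularForm
open P2MW.S_ModularForm_heckeT_slash_eq_self_of_mem_Gamma0.ModularForm.HeckeSlashInvariance
open scoped Pointwise Modular MatrixGroups OnePoint

namespace Fermat.Agent.GS.Pet

local notation "𝔾" => GL (Fin 2) ℝ

section General

theorem mapGL_mem_map_iff (H : Subgroup SL(2, ℤ)) (g : SL(2, ℤ)) :
    (mapGL ℝ g : 𝔾) ∈ H.map (mapGL ℝ) ↔ g ∈ H :=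
  Subgroup.mem_map_iff_mem (mapGL_injective (R := ℤ) (S := ℝ) (n := Fin 2))

/-- abstract representatives of `SL(2,ℤ) / H`, seen in `GL(2,ℝ)` -/
theorem isReps_quotient_out (H : Subgroup SL(2, ℤ)) :
    IsReps (𝒮ℒ : Subgroup 𝔾) (H.map (mapGL ℝ))
      (fun q : SL(2, ℤ) ⧸ H => (mapGL ℝ (Quotient.out q) : 𝔾)) where
  mem q := ⟨_, rfl⟩
  exists_unique := by
    rintro _ ⟨g, rfl⟩
    refine ⟨(g : SL(2, ℤ) ⧸ H), ?_, ?_⟩
    · show (mapGL ℝ (Quotient.out (g : SL(2, ℤ) ⧸ H)))⁻¹ * mapGL ℝ g ∈ _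
      rw [← map_inv, ← map_mul, mapGL_mem_map_iff, ← QuotientGroup.eq]
      exact Quotient.out_eq' _
    · intro q hq
      change (mapGL ℝ (Quotient.out q))⁻¹ * mapGL ℝ g ∈ _ at hq
      rw [← map_inv, ← map_mul, mapGL_mem_map_iff, ← QuotientGroup.eq] at hq
      rw [← hq]
      exact (Quotient.out_eq' q).symm

theorem map_le_SLrange (H : Subgroup SL(2, ℤ)) : H.map (mapGL ℝ) ≤ (𝒮ℒ : Subgroup 𝔾) := by
  rintro _ ⟨g, -, rfl⟩
  exact ⟨g, rfl⟩

instance countable_map_mapGL (H : Subgroup SL(2, ℤ)) : Countable (H.map (mapGL ℝ) : Subgroup 𝔾) :=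
  (Subgroup.inclusion_injective (map_le_SLrange H)).countable

/-- an element of `SL(2,ℤ)` acting trivially on `ℍ` is `±1` -/
theorem eq_one_or_neg_one_of_forall_smul_eq (g : SL(2, ℤ)) (h : ∀ z : ℍ, g • z = z) :
    g = 1 ∨ g = -1 := by
  have hz : (⟨⟨0, 2⟩, by norm_num⟩ : ℍ) ∈ 𝒟ᵒ := by
    constructor
    · show 1 < Complex.normSq ((⟨⟨0, 2⟩, by norm_num⟩ : ℍ) : ℂ)
      simp only [Complex.normSq_apply]
      norm_num
    · show |(⟨⟨0, 2⟩, by norm_num⟩ : ℍ).re| < 1 / 2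
      simp [UpperHalfPlane.re]
  have hz' : g • (⟨⟨0, 2⟩, by norm_num⟩ : ℍ) ∈ 𝒟 := by
    rw [h]
    exact ModularGroup.fdo_subset_fd hz
  exact ModularGroup.eq_one_or_neg_one_of_mem_fdo_mem_fd hz hz'

theorem kerLE_map (H H' : Subgroup SL(2, ℤ)) (hneg : -1 ∈ H') :
    KerLE ℍ (H.map (mapGL ℝ) : Subgroup 𝔾) (H'.map (mapGL ℝ)) := by
  rintro _ ⟨g, -, rfl⟩ hg
  rw [mapGL_mem_map_iff]
  rcases eq_one_or_neg_one_of_forall_smul_eq g hg with rfl | rfl
  · exact H'.one_mem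
  · exact hneg

theorem kerLE_SLrange (H' : Subgroup SL(2, ℤ)) (hneg : -1 ∈ H') :
    KerLE ℍ (𝒮ℒ : Subgroup 𝔾) (H'.map (mapGL ℝ)) := by
  rintro _ ⟨g, rfl⟩ hg
  rw [mapGL_mem_map_iff]
  rcases eq_one_or_neg_one_of_forall_smul_eq g hg with rfl | rfl
  · exact H'.one_mem
  · exact hneg

end General

section Ract

variable {p : ℕ} [Fact p.Prime]

theorem redMatrix_mul (g h : SL(2, ℤ)) : redMatrix p (g * h) = redMatrix p h * redMatrix p g := by
  ext i j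
  fin_cases i <;> fin_cases j <;>
    simp [Matrix.mul_apply, Fin.sum_univ_two, redMatrix, Matrix.GeneralLinearGroup.mkOfDetNeZero] <;>
    ring

theorem redMatrix_one : redMatrix p 1 = 1 := by
  ext i j
  fin_cases i <;> fin_cases j <;>
    simp [redMatrix, Matrix.GeneralLinearGroup.mkOfDetNeZero]

/-- the RIGHT action of `SL(2,ℤ)` on `ℙ¹(𝔽_p)` describing `Γ β_x g = Γ β_{x·g}` -/
def ract (g : SL(2, ℤ)) (x : OnePoint (ZMod p)) : OnePoint (ZMod p) := redMatrix p g • x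

theorem ract_mul (g h : SL(2, ℤ)) (x : OnePoint (ZMod p)) : ract (g * h) x = ract h (ract g x) := by
  rw [ract, ract, ract, redMatrix_mul, mul_smul]

theorem ract_one (x : OnePoint (ZMod p)) : ract 1 x = x := by
  rw [ract, redMatrix_one, one_smul]

theorem ract_inv_ract (g : SL(2, ℤ)) (x : OnePoint (ZMod p)) : ract g⁻¹ (ract g x) = x := by
  rw [← ract_mul, mul_inv_cancel, ract_one]

theorem ract_ract_inv (g : SL(2, ℤ)) (x : OnePoint (ZMod p)) : ract g (ract g⁻¹ x) = x := by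
  rw [← ract_mul, inv_mul_cancel, ract_one]

theorem ract_neg_one (x : OnePoint (ZMod p)) : ract (-1 : SL(2, ℤ)) x = x := by
  have hp1 : (1 : ZMod p) ≠ 0 := one_ne_zero
  induction x using OnePoint.rec with
  | infty =>
    rw [ract, OnePoint.smul_infty_eq_self_iff]
    simp [redMatrix, Matrix.GeneralLinearGroup.mkOfDetNeZero]
  | coe j =>
    rw [ract, OnePoint.smul_some_eq_ite]
    simp [redMatrix, Matrix.GeneralLinearGroup.mkOfDetNeZero]

variable (p) in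
/-- the stabiliser of `x ∈ ℙ¹(𝔽_p)` in `Γ₀(N)` -/
def stab (N : ℕ) (x : OnePoint (ZMod p)) : Subgroup SL(2, ℤ) where
  carrier := {g | g ∈ Gamma0 N ∧ ract g x = x}
  mul_mem' := by
    rintro a b ⟨ha, hax⟩ ⟨hb, hbx⟩
    exact ⟨mul_mem ha hb, by rw [ract_mul, hax, hbx]⟩
  one_mem' := ⟨one_mem _, ract_one x⟩
  inv_mem' := by
    rintro a ⟨ha, hax⟩
    refine ⟨inv_mem ha, ?_⟩
    conv_lhs => rw [← hax]
    exact ract_inv_ract a x

theorem mem_stab {N : ℕ} {x : OnePoint (ZMod p)} {g : SL(2, ℤ)} :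
    g ∈ stab p N x ↔ g ∈ Gamma0 N ∧ ract g x = x := Iff.rfl

theorem stab_le {N : ℕ} (x : OnePoint (ZMod p)) : stab p N x ≤ Gamma0 N := fun _ h => h.1

theorem neg_one_mem_Gamma0 (N : ℕ) : (-1 : SL(2, ℤ)) ∈ Gamma0 N := by
  rw [Gamma0_mem]
  simp

theorem neg_one_mem_stab (N : ℕ) (x : OnePoint (ZMod p)) : (-1 : SL(2, ℤ)) ∈ stab p N x :=
  ⟨neg_one_mem_Gamma0 N, ract_neg_one x⟩

/-- sections of the orbit map `g ↦ x₀·g` give representatives of `Γ₀(N) / stab N x₀` -/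
theorem isReps_of_transitive {N : ℕ} (x₀ : OnePoint (ZMod p)) (τ : OnePoint (ZMod p) → SL(2, ℤ))
    (hτ : ∀ y, τ y ∈ Gamma0 N) (hτx : ∀ y, ract (τ y) x₀ = y) :
    IsReps ((Gamma0 N).map (mapGL ℝ) : Subgroup 𝔾) ((stab p N x₀).map (mapGL ℝ))
      (fun y => (mapGL ℝ (τ y)⁻¹ : 𝔾)) where
  mem y := Subgroup.mem_map_of_mem _ (inv_mem (hτ y))
  exists_unique := by
    rintro _ ⟨g, hg, rfl⟩
    have key : ∀ y, ((mapGL ℝ (τ y)⁻¹ : 𝔾))⁻¹ * mapGL ℝ g ∈ (stab p N x₀).map (mapGL ℝ) ↔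
        y = ract g⁻¹ x₀ := by
      intro y
      rw [← map_inv, inv_inv, ← map_mul, mapGL_mem_map_iff, mem_stab, ract_mul, hτx]
      constructor
      · rintro ⟨-, h⟩
        rw [← h, ract_inv_ract]
      · intro h
        exact ⟨mul_mem (hτ y) hg, by rw [h, ract_ract_inv]⟩
    exact ⟨ract g⁻¹ x₀, (key _).2 rfl, fun y hy => (key y).1 hy⟩

end Ract

section Trans

variable {p : ℕ} [Fact p.Prime] {N : ℕ}

theorem isCoprime_of_not_dvd (hpN : ¬ p ∣ N) : IsCoprime (p : ℤ) (N : ℤ) :=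
  Nat.isCoprime_iff_coprime.mpr ((Nat.Prime.coprime_iff_not_dvd Fact.out).mpr hpN)

theorem natCast_ne_zero_of_not_dvd (hpN : ¬ p ∣ N) : (N : ZMod p) ≠ 0 := by
  rw [Ne, ZMod.natCast_eq_zero_iff]
  exact hpN

theorem mem_Gamma0_iff_dvd {g : SL(2, ℤ)} : g ∈ Gamma0 N ↔ (N : ℤ) ∣ g 1 0 := by
  rw [Gamma0_mem, ZMod.intCast_zmod_eq_zero_iff_dvd]

theorem exists_SL2 (a b c d : ℤ) (h : a * d - b * c = 1) :
    ∃ g : SL(2, ℤ), g 0 0 = a ∧ g 0 1 = b ∧ g 1 0 = c ∧ g 1 1 = d := by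
  have hdet : (!![a, b; c, d]).det = 1 := by
    rw [Matrix.det_fin_two_of]
    exact h
  exact ⟨⟨!![a, b; c, d], hdet⟩, rfl, rfl, rfl, rfl⟩

theorem ract_coe (g : SL(2, ℤ)) (j : ZMod p) :
    ract g (j : OnePoint (ZMod p)) =
      if ((g 1 0 : ℤ) : ZMod p) * j + ((g 0 0 : ℤ) : ZMod p) = 0 then ∞ else
        ((((g 1 1 : ℤ) : ZMod p) * j + ((g 0 1 : ℤ) : ZMod p)) /
          (((g 1 0 : ℤ) : ZMod p) * j + ((g 0 0 : ℤ) : ZMod p)) : ZMod p) := by
  rw [ract, OnePoint.smul_some_eq_ite, redMatrix_apply_zero_zero, redMatrix_apply_zero_one,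
    redMatrix_apply_one_zero, redMatrix_apply_one_one]

theorem ract_infty (g : SL(2, ℤ)) :
    ract g (∞ : OnePoint (ZMod p)) =
      if ((g 1 0 : ℤ) : ZMod p) = 0 then ∞ else
        ((((g 1 1 : ℤ) : ZMod p)) / (((g 1 0 : ℤ) : ZMod p)) : ZMod p) := by
  rw [ract, OnePoint.smul_infty_eq_ite, redMatrix_apply_zero_zero, redMatrix_apply_one_zero]

/-- `Γ₀(N)` moves `0` to any point of `ℙ¹(𝔽_p)` -/
theorem exists_ract_zero (hpN : ¬ p ∣ N) (y : OnePoint (ZMod p)) :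
    ∃ g ∈ Gamma0 N, ract g ((0 : ZMod p) : OnePoint (ZMod p)) = y := by
  induction y using OnePoint.rec with
  | infty =>
    obtain ⟨u, v, huv⟩ := isCoprime_of_not_dvd hpN
    obtain ⟨g, h00, h01, h10, h11⟩ := exists_SL2 (p : ℤ) (-v) (N : ℤ) u (by linear_combination huv)
    refine ⟨g, ?_, ?_⟩
    · rw [mem_Gamma0_iff_dvd, h10]
    · rw [ract_coe, if_pos]
      rw [h00]
      simp
  | coe j =>
    obtain ⟨g, h00, h01, h10, h11⟩ := exists_SL2 1 (j.val : ℤ) 0 1 (by ring)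
    refine ⟨g, ?_, ?_⟩
    · rw [mem_Gamma0_iff_dvd, h10]
      exact dvd_zero _
    · rw [ract_coe, if_neg]
      · rw [h00, h01, h10, h11]
        simp
      · rw [h00, h10]
        simp

/-- `Γ₀(N)` moves `∞` to any point of `ℙ¹(𝔽_p)` -/
theorem exists_ract_infty (hpN : ¬ p ∣ N) (y : OnePoint (ZMod p)) :
    ∃ g ∈ Gamma0 N, ract g (∞ : OnePoint (ZMod p)) = y := by
  induction y using OnePoint.rec with
  | infty => exact ⟨1, one_mem _, ract_one _⟩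
  | coe j =>
    have hcop : IsCoprime ((p : ℤ) + (j.val : ℤ) * (N : ℤ)) (N : ℤ) :=
      (isCoprime_of_not_dvd hpN).add_mul_right_left _
    obtain ⟨u, v, huv⟩ := hcop
    have hN0 : (N : ZMod p) ≠ 0 := natCast_ne_zero_of_not_dvd hpN
    obtain ⟨g, h00, h01, h10, h11⟩ := exists_SL2 u (-v) (N : ℤ) ((p : ℤ) + (j.val : ℤ) * (N : ℤ))
      (by linear_combination huv)
    refine ⟨g, ?_, ?_⟩
    · rw [mem_Gamma0_iff_dvd, h10]
    · rw [ract_infty, if_neg]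
      · rw [h10, h11]
        push_cast
        rw [ZMod.natCast_self, zero_add, ZMod.natCast_zmod_val, mul_div_assoc, div_self hN0, mul_one]
      · rw [h10]
        exact_mod_cast hN0

end Trans

section Conj

variable {p : ℕ} [Fact p.Prime] {N : ℕ}

theorem det_zmod (g : SL(2, ℤ)) :
    ((g 0 0 : ℤ) : ZMod p) * ((g 1 1 : ℤ) : ZMod p) - ((g 0 1 : ℤ) : ZMod p) * ((g 1 0 : ℤ) : ZMod p)
      = 1 := by
  have := congrArg (Int.cast : ℤ → ZMod p) (det_eq g)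
  push_cast at this
  exact this

theorem mem_stab_infty_iff {g : SL(2, ℤ)} :
    g ∈ stab p N ∞ ↔ g ∈ Gamma0 N ∧ (p : ℤ) ∣ g 1 0 := by
  rw [mem_stab, ract_infty, ← ZMod.intCast_zmod_eq_zero_iff_dvd]
  refine and_congr_right fun _ => ?_
  split_ifs with h
  · simp [h]
  · simp [h]

theorem mem_stab_zero_iff {g : SL(2, ℤ)} :
    g ∈ stab p N ((0 : ZMod p) : OnePoint (ZMod p)) ↔ g ∈ Gamma0 N ∧ (p : ℤ) ∣ g 0 1 := by
  rw [mem_stab, ract_coe, ← ZMod.intCast_zmod_eq_zero_iff_dvd]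
  refine and_congr_right fun _ => ?_
  have hdet := det_zmod (p := p) g
  simp only [mul_zero, zero_add]
  split_ifs with h
  · simp only [OnePoint.infty_ne_coe, false_iff]
    intro h01
    rw [h, h01] at hdet
    simp at hdet
  · rw [OnePoint.coe_eq_coe, div_eq_zero_iff]
    simp [h]

/-- the conjugation `α⁻¹ g α` for `g ∈ Γ₀(p)` -/
theorem mapGL_mul_heckeMatrix_zero (g : SL(2, ℤ)) (e : ℤ) (he : g 1 0 = p * e) :
    ∃ h : SL(2, ℤ), h 1 0 = e ∧ h 0 1 = p * g 0 1 ∧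
      (mapGL ℝ g : 𝔾) * heckeMatrix p 0 = heckeMatrix p 0 * mapGL ℝ h := by
  have hp : p ≠ 0 := (Fact.out : p.Prime).ne_zero
  have hdet := det_eq g
  obtain ⟨h, h00, h01, h10, h11⟩ := exists_SL2 (g 0 0) (p * g 0 1) e (g 1 1)
    (by linear_combination hdet + (g 0 1) * he)
  refine ⟨h, h10, h01, ?_⟩
  ext i j
  fin_cases i <;> fin_cases j <;>
    simp [hp, Matrix.mul_apply, Fin.sum_univ_two, h00, h01, h10, h11]
  all_goals first
    | (have := congrArg (Int.cast : ℤ → ℝ) he; push_cast at this ⊢; linear_combination this)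
    | (have := congrArg (Int.cast : ℤ → ℝ) he; push_cast at this ⊢; linear_combination -this)
    | ring1

/-- `stab N ∞ = α (stab N 0) α⁻¹` with `α = diag(1,p)` -/
theorem mem_stab_infty_iff_conj (hpN : ¬ p ∣ N) (g : 𝔾) :
    g ∈ (stab p N ∞).map (mapGL ℝ) ↔
      (heckeMatrix p 0)⁻¹ * g * heckeMatrix p 0 ∈
        (stab p N ((0 : ZMod p) : OnePoint (ZMod p))).map (mapGL ℝ) := by
  have hp : p ≠ 0 := (Fact.out : p.Prime).ne_zero
  have hcop : IsCoprime (N : ℤ) (p : ℤ) :=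
    Nat.isCoprime_iff_coprime.mpr ((Nat.Prime.coprime_iff_not_dvd Fact.out).mpr hpN).symm
  constructor
  · rintro ⟨g₀, hg₀, rfl⟩
    rw [SetLike.mem_coe, mem_stab_infty_iff, mem_Gamma0_iff_dvd] at hg₀
    obtain ⟨e, he⟩ := hg₀.2
    obtain ⟨h, h10, h01, hmul⟩ := mapGL_mul_heckeMatrix_zero g₀ e he
    rw [mul_assoc, hmul, inv_mul_cancel_left, mapGL_mem_map_iff, mem_stab_zero_iff,
      mem_Gamma0_iff_dvd, h10, h01]
    exact ⟨hcop.dvd_of_dvd_mul_left (he ▸ hg₀.1), dvd_mul_right _ _⟩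
  · rintro ⟨h₀, hh₀, hconj⟩
    rw [SetLike.mem_coe, mem_stab_zero_iff, mem_Gamma0_iff_dvd] at hh₀
    obtain ⟨e, he⟩ := hh₀.2
    obtain ⟨g', hg', hmul⟩ := heckeMatrix_mul_of_eq hp h₀ 0 0 e (by rw [he]; push_cast; ring)
    have hg : g = mapGL ℝ g' := by
      have : g = heckeMatrix p 0 * mapGL ℝ h₀ * (heckeMatrix p 0)⁻¹ := by
        rw [hconj]
        group
      rw [this, hmul, mul_inv_cancel_right]
    rw [hg, mapGL_mem_map_iff, mem_stab_infty_iff, mem_Gamma0_iff_dvd, hg']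
    exact ⟨dvd_mul_of_dvd_right hh₀.1 _, dvd_mul_right _ _⟩

/-- `heckeRep_mul` of the Prelude, with memberships -/
theorem heckeRep_mul_mem (hpN : ¬ p ∣ N) {g : SL(2, ℤ)} (hg : g ∈ Gamma0 N)
    (x : OnePoint (ZMod p)) :
    ∃ g' ∈ Gamma0 N, heckeRep p x * (mapGL ℝ g : 𝔾) = mapGL ℝ g' * heckeRep p (ract g x) := by
  obtain ⟨g', hg', hmul⟩ := heckeRep_mul hpN g (mem_Gamma0_iff_dvd.1 hg) x
  exact ⟨g', mem_Gamma0_iff_dvd.2 hg', hmul⟩

end Conj

end Fermat.Agent.GS.Pet
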