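/-
  GS / Petersson, step 3 : the standard fundamental domain has finite hyperbolic area, and the
  hyperbolic measure of the upper half plane is positive on nonempty open sets.
-/
import Mathlib
import Fermat.Agent.GS.Pet.FDModular

set_option autoImplicit false
open MeasureTheory Set Function UpperHalfPlane
open scoped Pointwise Modular MatrixGroups ENNReal NNReal

namespace Fermat.Agent.GS.Pet

theorem lintegral_Ici_inv_sq_lt_top :
    ∫⁻ y in Ici (1 / 2 : ℝ), (((1 / ‖y‖₊) ^ 2 : ℝ≥0) : ℝ≥0∞) < ∞ := by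
  have hint : IntegrableOn (fun t : ℝ => t ^ (-2 : ℝ)) (Ioi (1 / 2 : ℝ)) :=
    integrableOn_Ioi_rpow_of_lt (by norm_num) (by norm_num)
  rw [← integrableOn_Ici_iff_integrableOn_Ioi] at hint
  have h1 := hint.lintegral_lt_top
  have h2 : ∫⁻ y in Ici (1 / 2 : ℝ), (((1 / ‖y‖₊) ^ 2 : ℝ≥0) : ℝ≥0∞) =
      ∫⁻ y in Ici (1 / 2 : ℝ), ENNReal.ofReal (y ^ (-2 : ℝ)) := by
    refine setLIntegral_congr_fun measurableSet_Ici fun y hy => ?_
    have hy0 : 0 < y := lt_of_lt_of_le (by norm_num) hy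
    rw [ENNReal.ofReal, ENNReal.coe_inj]
    ext
    simp only [one_div, NNReal.coe_pow, NNReal.coe_inv, coe_nnnorm, Real.norm_eq_abs, abs_of_pos hy0]
    rw [Real.coe_toNNReal _ (Real.rpow_nonneg hy0.le _), Real.rpow_neg hy0.le, inv_pow]
    congr 1
    exact (Real.rpow_natCast y 2).symm
  rw [h2]
  exact h1

/-- the half-strip `|x| ≤ 1/2`, `y ≥ 1/2` has finite hyperbolic area -/
theorem lintegral_strip_lt_top :
    ∫⁻ z in {z : ℂ | |z.re| ≤ 1 / 2 ∧ 1 / 2 ≤ z.im}, ((1 / ‖z.im‖₊) ^ 2 : ℝ≥0) < ∞ := by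
  have hS : {z : ℂ | |z.re| ≤ 1 / 2 ∧ 1 / 2 ≤ z.im} =
      Complex.measurableEquivRealProd ⁻¹' (Icc (-(1 / 2) : ℝ) (1 / 2) ×ˢ Ici (1 / 2 : ℝ)) := by
    ext z
    simp [Complex.measurableEquivRealProd, abs_le]
  rw [hS]
  have hmp := Complex.volume_preserving_equiv_real_prod
  have e1 := hmp.setLIntegral_comp_preimage_emb Complex.measurableEquivRealProd.measurableEmbedding
    (fun q : ℝ × ℝ => (((1 / ‖q.2‖₊) ^ 2 : ℝ≥0) : ℝ≥0∞)) (Icc (-(1 / 2) : ℝ) (1 / 2) ×ˢ Ici (1 / 2 : ℝ))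
  have e2 : (fun z : ℂ => (((1 / ‖z.im‖₊) ^ 2 : ℝ≥0) : ℝ≥0∞)) =
      fun z => (fun q : ℝ × ℝ => (((1 / ‖q.2‖₊) ^ 2 : ℝ≥0) : ℝ≥0∞)) (Complex.measurableEquivRealProd z) := by
    funext z
    simp [Complex.measurableEquivRealProd]
  rw [e2, e1, Measure.volume_eq_prod, ← Measure.prod_restrict, lintegral_prod]
  · simp only [lintegral_const, Measure.restrict_apply MeasurableSet.univ, univ_inter, Real.volume_Icc]
    exact ENNReal.mul_lt_top lintegral_Ici_inv_sq_lt_top ENNReal.ofReal_lt_top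
  · apply Measurable.aemeasurable
    fun_prop

/-- **the standard fundamental domain has finite hyperbolic area** -/
theorem volume_fd_lt_top : volume (𝒟 : Set ℍ) < ∞ := by
  rw [UpperHalfPlane.volume_eq_lintegral]
  refine lt_of_le_of_lt (lintegral_mono_set ?_) lintegral_strip_lt_top
  rintro _ ⟨z, hz, rfl⟩
  refine ⟨hz.2, ?_⟩
  have h3 := ModularGroup.three_le_four_mul_im_sq_of_mem_fd hz
  have him : 0 < z.im := z.im_pos
  show 1 / 2 ≤ (z : ℂ).im
  rw [UpperHalfPlane.coe_im]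
  nlinarith

/-- the hyperbolic measure is positive on nonempty open sets -/
instance isOpenPosMeasure_upperHalfPlane : (volume : Measure ℍ).IsOpenPosMeasure where
  open_pos U hU hne := by
    rw [UpperHalfPlane.volume_eq_lintegral]
    have hopen : IsOpen ((↑) '' U : Set ℂ) := UpperHalfPlane.isOpenEmbedding_coe.isOpenMap U hU
    have hne' : ((↑) '' U : Set ℂ).Nonempty := hne.image _
    have hpos : 0 < volume ((↑) '' U : Set ℂ) := hopen.measure_pos volume hne'
    intro h0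
    rw [setLIntegral_eq_zero_iff' hopen.measurableSet (by fun_prop)] at h0
    have hmem : ∀ᵐ z ∂(volume : Measure ℂ), z ∉ ((↑) '' U : Set ℂ) := by
      filter_upwards [h0] with z hz hzU
      have := hz hzU
      obtain ⟨w, hw, rfl⟩ := hzU
      have him : 0 < (w : ℂ).im := w.im_pos
      simp only [one_div, ENNReal.coe_eq_zero, pow_eq_zero_iff (two_ne_zero), inv_eq_zero,
        nnnorm_eq_zero] at this
      exact him.ne' this
    have : volume ((↑) '' U : Set ℂ) = 0 := by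
      rw [ae_iff] at hmem
      convert hmem using 2
      ext z
      simp
    exact hpos.ne' this

end Fermat.Agent.GS.Pet
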