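/-
CELL-S / GS-PETERSSON-REDUCED (helper83), file 5: **the Petersson inner product on
`S_k(Γ₀(N))`**.

* `fdN N` : a fundamental domain of `Γ₀(N)` (finitely many translates of `𝒟`), of finite volume;
* `PetBdd k F` : `τ ↦ ‖F τ‖² (im τ)^k` is bounded; stable under slash and sums, true for cusp
  forms; gives the integrability of all Petersson integrands on sets of finite volume;
* `petInner f g := ∫_{fdN N} petersson k f g`, additive in both variables, conjugate-linear in the
  first, linear in the second, and **definite**: `petInner f f = 0 → f = 0`.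
-/
import Mathlib
import Fermat.Agent.GS.Pet.Cosets
import Fermat.Agent.GS.Pet.FDVolume

set_option autoImplicit false
set_option linter.unusedSectionVars false

open MeasureTheory Set Function UpperHalfPlane
open Matrix.SpecialLinearGroup CongruenceSubgroup ModularForm
open scoped Pointwise Modular MatrixGroups ComplexConjugate ENNReal

namespace Fermat.Agent.GS.Pet

local notation "𝔾" => GL (Fin 2) ℝ

section FDN

variable (N : ℕ) [NeZero N]

/-- a fundamental domain of `Γ₀(N)`: finitely many translates of `𝒟` -/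
def fdN : Set ℍ :=
  ⋃ q : SL(2, ℤ) ⧸ Gamma0 N, ((mapGL ℝ (Quotient.out q) : 𝔾))⁻¹ • (𝒟 : Set ℍ)

instance finite_quot_Gamma0 : Finite (SL(2, ℤ) ⧸ Gamma0 N) :=
  Subgroup.finite_quotient_of_finiteIndex

theorem isFundamentalDomain_fdN :
    IsFundamentalDomain (bar ℍ ((Gamma0 N).map (mapGL ℝ) : Subgroup 𝔾)) (fdN N) volume :=
  isFundamentalDomain_iUnion_of_reps (isReps_quotient_out (Gamma0 N)) (map_le_SLrange _)
    (kerLE_SLrange _ (neg_one_mem_Gamma0 N)) isFundamentalDomain_fd

theorem volume_fdN_lt_top : volume (fdN N) < ∞ := by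
  have : Fintype (SL(2, ℤ) ⧸ Gamma0 N) := Fintype.ofFinite _
  refine lt_of_le_of_lt (measure_iUnion_le _) ?_
  rw [tsum_fintype]
  refine ENNReal.sum_lt_top.2 fun q _ => ?_
  rw [measure_smul]
  exact volume_fd_lt_top

end FDN

section Bdd

variable {k : ℤ}

/-- `τ ↦ ‖F τ‖² (im τ)^k` is bounded -/
def PetBdd (k : ℤ) (F : ℍ → ℂ) : Prop := ∃ C, ∀ τ, ‖petersson k F F τ‖ ≤ C

theorem norm_petersson_sq (F G : ℍ → ℂ) (τ : ℍ) :
    ‖petersson k F G τ‖ ^ 2 = ‖petersson k F F τ‖ * ‖petersson k G G τ‖ := by
  simp only [petersson, norm_mul, Complex.norm_conj]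
  ring

theorem PetBdd.petersson_le {F G : ℍ → ℂ} (hF : PetBdd k F) (hG : PetBdd k G) :
    ∃ C, ∀ τ, ‖petersson k F G τ‖ ≤ C := by
  obtain ⟨A, hA⟩ := hF
  obtain ⟨B, hB⟩ := hG
  refine ⟨Real.sqrt (A * B), fun τ => ?_⟩
  apply Real.le_sqrt_of_sq_le
  rw [norm_petersson_sq]
  exact mul_le_mul (hA τ) (hB τ) (norm_nonneg _) ((norm_nonneg _).trans (hA τ))

theorem PetBdd.slash {F : ℍ → ℂ} (hF : PetBdd k F) (M : 𝔾) : PetBdd k (F ∣[k] M) := by
  obtain ⟨A, hA⟩ := hF
  refine ⟨‖((|M.det.val| : ℝ) : ℂ) ^ (k - 2)‖ * A, fun τ => ?_⟩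
  rw [petersson_slash, norm_mul, norm_σ]
  exact mul_le_mul_of_nonneg_left (hA _) (norm_nonneg _)

theorem PetBdd.add {F G : ℍ → ℂ} (hF : PetBdd k F) (hG : PetBdd k G) : PetBdd k (F + G) := by
  obtain ⟨A, hA⟩ := hF
  obtain ⟨B, hB⟩ := hG
  obtain ⟨C, hC⟩ := PetBdd.petersson_le ⟨A, hA⟩ ⟨B, hB⟩
  refine ⟨A + C + (C + B), fun τ => ?_⟩
  have h1 : petersson k (F + G) (F + G) τ = petersson k F F τ + petersson k F G τ +
      (petersson k G F τ + petersson k G G τ) := by
    simp only [petersson, Pi.add_apply, map_add]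
    ring
  rw [h1]
  refine (norm_add_le _ _).trans (add_le_add ((norm_add_le _ _).trans (add_le_add (hA τ) (hC τ)))
    ((norm_add_le _ _).trans (add_le_add ?_ (hB τ))))
  rw [petersson_norm_symm]
  exact hC τ

theorem petBdd_cuspForm {N : ℕ} [NeZero N] (f : CuspForm (Gamma0 N) k) : PetBdd k f :=
  CuspFormClass.petersson_bounded_left k (Gamma0 N) f f

theorem continuous_slash {F : ℍ → ℂ} (hF : Continuous F) (M : 𝔾) : Continuous (F ∣[k] M) := by
  have : (F ∣[k] M) = fun τ => σ M (F (M • τ)) * (|M.det.val| : ℝ) ^ (k - 1) * denom M τ ^ (-k) := by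
    rfl
  rw [this]
  have h1 : Continuous fun τ : ℍ => M • τ := continuous_const_smul M
  have h2 : Continuous fun τ : ℍ => denom M τ := by
    unfold denom
    fun_prop
  have h3 : Continuous (σ M) := by
    unfold σ
    split_ifs
    · exact continuous_id
    · exact Complex.continuous_conj
  refine ((h3.comp (hF.comp h1)).mul continuous_const).mul ?_
  exact h2.zpow₀ _ fun τ => Or.inl (denom_ne_zero M τ)

/-- bounded continuous functions are integrable on sets of finite measure -/
theorem integrableOn_petersson {F G : ℍ → ℂ} (hF : Continuous F) (hG : Continuous G)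
    (hFb : PetBdd k F) (hGb : PetBdd k G) (M : 𝔾) {s : Set ℍ} (hs : volume s < ∞) :
    IntegrableOn (fun τ => petersson k F G (M • τ)) s volume := by
  obtain ⟨C, hC⟩ := PetBdd.petersson_le hFb hGb
  refine Measure.integrableOn_of_bounded hs.ne ?_ (Filter.Eventually.of_forall fun τ => hC (M • τ))
  have hc : Continuous fun τ : ℍ => petersson k F G (M • τ) :=
    (petersson_continuous k hF hG).comp (continuous_const_smul M)
  exact hc.aestronglyMeasurable

end Bdd

section Inner

variable {N : ℕ} [NeZero N] {k : ℤ}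

theorem continuous_cuspForm (f : CuspForm (Gamma0 N) k) : Continuous f :=
  (CuspFormClass.holo f).continuous

theorem integrableOn_petersson_cuspForm (f g : CuspForm (Gamma0 N) k) :
    IntegrableOn (petersson k f g) (fdN N) volume := by
  have := integrableOn_petersson (continuous_cuspForm f) (continuous_cuspForm g)
    (petBdd_cuspForm f) (petBdd_cuspForm g) 1 (volume_fdN_lt_top N)
  simpa only [one_smul] using this

/-- **the Petersson inner product** on `S_k(Γ₀(N))` (conjugate-linear in the first variable) -/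
noncomputable def petInner (f g : CuspForm (Gamma0 N) k) : ℂ :=
  ∫ τ in fdN N, petersson k f g τ

theorem petInner_add_right (f g g' : CuspForm (Gamma0 N) k) :
    petInner f (g + g') = petInner f g + petInner f g' := by
  unfold petInner
  rw [← integral_add (integrableOn_petersson_cuspForm f g) (integrableOn_petersson_cuspForm f g')]
  refine integral_congr_ae (Filter.Eventually.of_forall fun τ => ?_)
  simp only [petersson, FunLike.coe_add, Pi.add_apply]
  ring

theorem petInner_add_left (f f' g : CuspForm (Gamma0 N) k) :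
    petInner (f + f') g = petInner f g + petInner f' g := by
  unfold petInner
  rw [← integral_add (integrableOn_petersson_cuspForm f g) (integrableOn_petersson_cuspForm f' g)]
  refine integral_congr_ae (Filter.Eventually.of_forall fun τ => ?_)
  simp only [petersson, FunLike.coe_add, Pi.add_apply, map_add]
  ring

theorem petInner_smul_right (c : ℂ) (f g : CuspForm (Gamma0 N) k) :
    petInner f (c • g) = c * petInner f g := by
  unfold petInner
  rw [← integral_const_mul]
  refine integral_congr_ae (Filter.Eventually.of_forall fun τ => ?_)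
  simp only [petersson, FunLike.coe_smul, Pi.smul_apply, smul_eq_mul]
  ring

theorem petInner_smul_left (c : ℂ) (f g : CuspForm (Gamma0 N) k) :
    petInner (c • f) g = conj c * petInner f g := by
  unfold petInner
  rw [← integral_const_mul]
  refine integral_congr_ae (Filter.Eventually.of_forall fun τ => ?_)
  simp only [petersson, FunLike.coe_smul, Pi.smul_apply, smul_eq_mul, map_mul]
  ring

theorem petInner_conj_symm (f g : CuspForm (Gamma0 N) k) :
    petInner g f = conj (petInner f g) := by
  unfold petInner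
  rw [← integral_conj]
  refine integral_congr_ae (Filter.Eventually.of_forall fun τ => ?_)
  exact petersson_symm k f g τ

theorem petersson_self_eq (F : ℍ → ℂ) (τ : ℍ) :
    petersson k F F τ = ((‖F τ‖ ^ 2 * τ.im ^ k : ℝ) : ℂ) := by
  rw [petersson, Complex.conj_mul']
  push_cast
  rfl

theorem petersson_smul_Gamma0 (f g : CuspForm (Gamma0 N) k) {γ : 𝔾}
    (hγ : γ ∈ ((Gamma0 N).map (mapGL ℝ) : Subgroup 𝔾)) (τ : ℍ) :
    petersson k f g (γ • τ) = petersson k f g τ :=
  SlashInvariantFormClass.petersson_smul (Γ := ((Gamma0 N).map (mapGL ℝ) : Subgroup 𝔾)) hγ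

/-- **definiteness** of the Petersson inner product -/
theorem eq_zero_of_petInner_self_eq_zero (f : CuspForm (Gamma0 N) k) (h : petInner f f = 0) :
    f = 0 := by
  set φ : ℍ → ℝ := fun τ => ‖f τ‖ ^ 2 * τ.im ^ k with hφ
  have hφ_eq : ∀ τ, petersson k f f τ = ((φ τ : ℝ) : ℂ) := fun τ => petersson_self_eq f τ
  have hφ_nonneg : ∀ τ, 0 ≤ φ τ := fun τ =>
    mul_nonneg (sq_nonneg _) (zpow_nonneg τ.im_pos.le k)
  have hφ_cont : Continuous φ := by
    have hc := continuous_cuspForm f
    have him : Continuous fun τ : ℍ => τ.im := UpperHalfPlane.continuous_im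
    exact (hc.norm.pow 2).mul (him.zpow₀ k fun τ => Or.inl τ.im_pos.ne')
  have hφ_int : IntegrableOn φ (fdN N) volume := by
    have := (integrableOn_petersson_cuspForm f f).re
    refine this.congr (Filter.Eventually.of_forall fun τ => ?_)
    show (petersson k f f τ).re = φ τ
    rw [hφ_eq, Complex.ofReal_re]
  -- the integral of `φ` vanishes
  have h0 : ∫ τ in fdN N, φ τ = 0 := by
    have : petInner f f = ((∫ τ in fdN N, φ τ : ℝ) : ℂ) := by
      unfold petInner
      rw [← integral_complex_ofReal]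
      exact integral_congr_ae (Filter.Eventually.of_forall fun τ => hφ_eq τ)
    rw [this] at h
    exact_mod_cast h
  -- hence `φ = 0` almost everywhere on `fdN N`
  have hD := isFundamentalDomain_fdN N
  have h1 : φ =ᵐ[volume.restrict (fdN N)] 0 :=
    (setIntegral_eq_zero_iff_of_nonneg_ae (Filter.Eventually.of_forall hφ_nonneg) hφ_int).1 h0
  -- the support of `φ` is invariant, open, and meets `fdN N` in a null set
  set Z : Set ℍ := {τ | φ τ ≠ 0} with hZ
  have hZopen : IsOpen Z := isOpen_ne_fun hφ_cont continuous_const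
  have hφinv : ∀ γ ∈ ((Gamma0 N).map (mapGL ℝ) : Subgroup 𝔾), ∀ τ, φ (γ • τ) = φ τ := by
    intro γ hγ τ
    have := petersson_smul_Gamma0 f f hγ τ
    rw [hφ_eq, hφ_eq] at this
    exact_mod_cast this
  have hZinv : ∀ g : bar ℍ ((Gamma0 N).map (mapGL ℝ) : Subgroup 𝔾), g • Z = Z := by
    intro g
    obtain ⟨γ, hγ, rfl⟩ := exists_rep_bar g
    rw [barMk_smul_set]
    ext τ
    rw [mem_smul_set_iff_inv_smul_mem]
    show φ (γ⁻¹ • τ) ≠ 0 ↔ φ τ ≠ 0
    rw [hφinv _ (inv_mem hγ)]
  have hZnull : volume (Z ∩ fdN N) = 0 := by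
    have : ∀ᵐ τ ∂(volume.restrict (fdN N)), τ ∉ Z := by
      filter_upwards [h1] with τ hτ
      simpa [hZ] using hτ
    rw [ae_iff] at this
    simp only [not_not] at this
    rw [Measure.restrict_apply₀' hD.nullMeasurableSet] at this
    exact this
  have hZ0 : volume Z = 0 := hD.measure_zero_of_invariant Z hZinv hZnull
  have hZempty : Z = ∅ := (hZopen.measure_eq_zero_iff volume).1 hZ0
  ext τ
  have hτ : τ ∉ Z := by rw [hZempty]; exact notMem_empty τ
  have hφτ : φ τ = 0 := by simpa [hZ] using hτ
  have him : τ.im ^ k ≠ 0 := zpow_ne_zero k τ.im_pos.ne'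
  have : ‖f τ‖ ^ 2 = 0 := by
    rcases mul_eq_zero.1 hφτ with h' | h'
    · exact h'
    · exact absurd h' him
  simpa using this

end Inner

end Fermat.Agent.GS.Pet
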