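/-
CELL-S / GS-PETERSSON-REDUCED (helper83), file 6: **`T_p` is self-adjoint for the Petersson inner
product** (`p ∤ N`): `petInner (T_p f) g = petInner f (T_p g)`.

Classical unfolding: `Γ₀(N) α Γ₀(N) = ⊔ₓ Γ₀(N) β_x`, `x ∈ ℙ¹(𝔽_p)` (Prelude `heckeRep_mul`),
`β_x = γ α τ₀(x)` and `β_y = γ' α' τ_∞(y)` with `τ₀(x)⁻¹`, `τ_∞(y)⁻¹` representatives of
`Γ₀(N)/stab 0`, `Γ₀(N)/stab ∞`, `stab ∞ = α (stab 0) α⁻¹`, and the change of variables
`sum_setIntegral_conj` for `ψ = petersson k f (g∣α')`.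
-/
import Mathlib
import Fermat.Agent.GS.Pet.Inner
import Fermat.Prelude.Def_CuspForm_HeckeAlgebra

set_option autoImplicit false
set_option linter.unusedSectionVars false

open MeasureTheory Set Function UpperHalfPlane
open Matrix.SpecialLinearGroup CongruenceSubgroup ModularForm
open P2MW.S_ModularForm_heckeT_slash_eq_self_of_mem_Gamma0.ModularForm.HeckeSlashInvariance
open scoped Pointwise Modular MatrixGroups ComplexConjugate ENNReal OnePoint

namespace Fermat.Agent.GS.Pet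

local notation "𝔾" => GL (Fin 2) ℝ

section Adjoint

variable {N : ℕ} [NeZero N] {k : ℤ} {p : ℕ} [Fact p.Prime]

theorem slash_mapGL_eq (f : CuspForm (Gamma0 N) k) {γ : SL(2, ℤ)} (hγ : γ ∈ Gamma0 N) :
    (f : ℍ → ℂ) ∣[k] (mapGL ℝ γ : 𝔾) = f :=
  SlashInvariantFormClass.slash_action_eq f _ (Subgroup.mem_map_of_mem _ hγ)

/-- `f∣β_x = (f∣β_{x₀})∣τ` when `x = x₀·τ` -/
theorem slash_heckeRep_ract (hpN : ¬ p ∣ N) (f : CuspForm (Gamma0 N) k) (x₀ : OnePoint (ZMod p))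
    {τ : SL(2, ℤ)} (hτ : τ ∈ Gamma0 N) :
    (f : ℍ → ℂ) ∣[k] heckeRep p (ract τ x₀) =
      ((f : ℍ → ℂ) ∣[k] heckeRep p x₀) ∣[k] (mapGL ℝ τ : 𝔾) := by
  obtain ⟨g', hg', hmul⟩ := heckeRep_mul_mem hpN hτ x₀
  rw [← SlashAction.slash_mul, hmul, SlashAction.slash_mul, slash_mapGL_eq f hg']

theorem petersson_slash_mapGL (F G : ℍ → ℂ) (τ : SL(2, ℤ)) (z : ℍ) :
    petersson k (F ∣[k] (mapGL ℝ τ : 𝔾)) (G ∣[k] (mapGL ℝ τ : 𝔾)) z =
      petersson k F G ((mapGL ℝ τ : 𝔾) • z) :=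
  petersson_slash_SL k F G τ z

theorem heckeDiag_smul_heckeMatrix_zero_smul (w : ℍ) :
    heckeDiagMatrix p • heckeMatrix p 0 • w = w := by
  have hp : p ≠ 0 := (Fact.out : p.Prime).ne_zero
  have hp' : (p : ℂ) ≠ 0 := by exact_mod_cast hp
  apply UpperHalfPlane.ext
  rw [coe_heckeDiagMatrix_smul hp, coe_heckeMatrix_smul hp]
  field_simp
  simp

theorem im_heckeMatrix_zero_smul (w : ℍ) : (heckeMatrix p 0 • w).im = w.im / p := by
  have hp : p ≠ 0 := (Fact.out : p.Prime).ne_zero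
  rw [← UpperHalfPlane.coe_im, coe_heckeMatrix_smul hp]
  simp [Complex.div_natCast_im]

/-- the pointwise identity behind `⟨f∣α, g⟩ = ⟨f, g∣α'⟩` -/
theorem petersson_slash_heckeMatrix_zero (F G : ℍ → ℂ) (w : ℍ) :
    petersson k (F ∣[k] heckeMatrix p 0) G w =
      petersson k F (G ∣[k] heckeDiagMatrix p) (heckeMatrix p 0 • w) := by
  have hp : p ≠ 0 := (Fact.out : p.Prime).ne_zero
  have hp' : (p : ℂ) ≠ 0 := by exact_mod_cast hp
  unfold petersson
  rw [slash_heckeMatrix_apply k hp 0 F w, slash_heckeDiagMatrix_apply k hp G,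
    heckeDiag_smul_heckeMatrix_zero_smul, im_heckeMatrix_zero_smul]
  push_cast
  rw [map_mul, map_inv₀, Complex.conj_natCast, div_zpow, zpow_sub_one₀ hp']
  field_simp

theorem petersson_sum_left {ι : Type*} (s : Finset ι) (F : ι → ℍ → ℂ) (G : ℍ → ℂ) (z : ℍ) :
    petersson k (∑ i ∈ s, F i) G z = ∑ i ∈ s, petersson k (F i) G z := by
  simp only [petersson, Finset.sum_apply, map_sum, Finset.sum_mul]

theorem petersson_sum_right {ι : Type*} (s : Finset ι) (F : ℍ → ℂ) (G : ι → ℍ → ℂ) (z : ℍ) :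
    petersson k F (∑ i ∈ s, G i) z = ∑ i ∈ s, petersson k F (G i) z := by
  simp only [petersson, Finset.sum_apply, Finset.mul_sum, Finset.sum_mul]

theorem heckeRep_zero : heckeRep p ((0 : ZMod p) : OnePoint (ZMod p)) = heckeMatrix p 0 := by
  rw [heckeRep_coe, ZMod.val_zero]

/-- Lemma A : the `x`-th term of `⟨T_p f, g⟩` -/
theorem petersson_heckeRep_left (hpN : ¬ p ∣ N) (f g : CuspForm (Gamma0 N) k)
    {τ : SL(2, ℤ)} (hτ : τ ∈ Gamma0 N) (z : ℍ) :
    petersson k ((f : ℍ → ℂ) ∣[k] heckeRep p (ract τ ((0 : ZMod p) : OnePoint (ZMod p)))) g z =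
      petersson k f ((g : ℍ → ℂ) ∣[k] heckeDiagMatrix p)
        (heckeMatrix p 0 • (mapGL ℝ τ : 𝔾) • z) := by
  rw [slash_heckeRep_ract hpN f _ hτ, heckeRep_zero]
  conv_lhs => rw [← slash_mapGL_eq g hτ]
  rw [petersson_slash_mapGL, petersson_slash_heckeMatrix_zero]

/-- Lemma B : the `y`-th term of `⟨f, T_p g⟩` -/
theorem petersson_heckeRep_right (hpN : ¬ p ∣ N) (f g : CuspForm (Gamma0 N) k)
    {τ : SL(2, ℤ)} (hτ : τ ∈ Gamma0 N) (z : ℍ) :
    petersson k f ((g : ℍ → ℂ) ∣[k] heckeRep p (ract τ (∞ : OnePoint (ZMod p)))) z =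
      petersson k f ((g : ℍ → ℂ) ∣[k] heckeDiagMatrix p) ((mapGL ℝ τ : 𝔾) • z) := by
  rw [slash_heckeRep_ract hpN g _ hτ, heckeRep_infty]
  conv_lhs => rw [← slash_mapGL_eq f hτ]
  rw [petersson_slash_mapGL]

/-- invariance of `ψ = petersson k f (g∣α')` under `stab N ∞` -/
theorem psi_invariant (hpN : ¬ p ∣ N) (f g : CuspForm (Gamma0 N) k) {γ : 𝔾}
    (hγ : γ ∈ ((stab p N (∞ : OnePoint (ZMod p))).map (mapGL ℝ) : Subgroup 𝔾)) (z : ℍ) :
    petersson k f ((g : ℍ → ℂ) ∣[k] heckeDiagMatrix p) (γ • z) =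
      petersson k f ((g : ℍ → ℂ) ∣[k] heckeDiagMatrix p) z := by
  obtain ⟨γ₀, hγ₀, rfl⟩ := hγ
  obtain ⟨hmem, hfix⟩ := mem_stab.1 hγ₀
  rw [← petersson_heckeRep_right hpN f g hmem, hfix, heckeRep_infty]

theorem integrableOn_psi (f g : CuspForm (Gamma0 N) k) (M : 𝔾) :
    IntegrableOn (fun z => petersson k f ((g : ℍ → ℂ) ∣[k] heckeDiagMatrix p) (M • z))
      (fdN N) volume :=
  integrableOn_petersson (continuous_cuspForm f) (continuous_slash (continuous_cuspForm g) _)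
    (petBdd_cuspForm f) ((petBdd_cuspForm g).slash _) M (volume_fdN_lt_top N)

omit [Fact p.Prime] in
/-- **`T_p` is self-adjoint for the Petersson inner product** (`p ∤ N`) -/
theorem petInner_heckeT_comm (hp : p.Prime) (hpN : ¬ p ∣ N) (f g : CuspForm (Gamma0 N) k) :
    petInner (CuspForm.heckeTLin k hp hpN f) g = petInner f (CuspForm.heckeTLin k hp hpN g) := by
  have : Fact p.Prime := ⟨hp⟩
  have : NeZero p := ⟨hp.ne_zero⟩
  choose τ0 hτ0 hτ0x using exists_ract_zero (p := p) (N := N) hpN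
  choose τi hτi hτix using exists_ract_infty (p := p) (N := N) hpN
  have hA : ∀ x z, petersson k ((f : ℍ → ℂ) ∣[k] heckeRep p x) g z =
      petersson k f ((g : ℍ → ℂ) ∣[k] heckeDiagMatrix p)
        (heckeMatrix p 0 • (mapGL ℝ (τ0 x) : 𝔾) • z) := by
    intro x z
    have := petersson_heckeRep_left hpN f g (hτ0 x) z
    rwa [hτ0x] at this
  have hB : ∀ y z, petersson k f ((g : ℍ → ℂ) ∣[k] heckeRep p y) z =
      petersson k f ((g : ℍ → ℂ) ∣[k] heckeDiagMatrix p) ((mapGL ℝ (τi y) : 𝔾) • z) := by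
    intro y z
    have := petersson_heckeRep_right hpN f g (hτi y) z
    rwa [hτix] at this
  -- the left hand side
  have hL : petInner (CuspForm.heckeTLin k hp hpN f) g =
      ∑ x, ∫ z in fdN N, petersson k f ((g : ℍ → ℂ) ∣[k] heckeDiagMatrix p)
        (heckeMatrix p 0 • (mapGL ℝ (τ0 x) : 𝔾) • z) := by
    unfold petInner
    have hpt : ∀ z, petersson k (CuspForm.heckeTLin k hp hpN f) g z =
        ∑ x, petersson k f ((g : ℍ → ℂ) ∣[k] heckeDiagMatrix p)
          (heckeMatrix p 0 • (mapGL ℝ (τ0 x) : 𝔾) • z) := by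
      intro z
      rw [CuspForm.coe_heckeTLin_apply, heckeT_eq_sum_onePoint, petersson_sum_left]
      exact Finset.sum_congr rfl fun x _ => hA x z
    rw [integral_congr_ae (Filter.Eventually.of_forall hpt)]
    refine integral_finsetSum _ fun x _ => ?_
    have := integrableOn_psi (p := p) f g (heckeMatrix p 0 * (mapGL ℝ (τ0 x) : 𝔾))
    simp only [mul_smul] at this
    exact this
  -- the right hand side
  have hR : petInner f (CuspForm.heckeTLin k hp hpN g) =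
      ∑ y, ∫ z in fdN N, petersson k f ((g : ℍ → ℂ) ∣[k] heckeDiagMatrix p)
        ((mapGL ℝ (τi y) : 𝔾) • z) := by
    unfold petInner
    have hpt : ∀ z, petersson k f (CuspForm.heckeTLin k hp hpN g) z =
        ∑ y, petersson k f ((g : ℍ → ℂ) ∣[k] heckeDiagMatrix p) ((mapGL ℝ (τi y) : 𝔾) • z) := by
      intro z
      rw [CuspForm.coe_heckeTLin_apply, heckeT_eq_sum_onePoint, petersson_sum_right]
      exact Finset.sum_congr rfl fun y _ => hB y z
    rw [integral_congr_ae (Filter.Eventually.of_forall hpt)]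
    refine integral_finsetSum _ fun y _ => ?_
    exact integrableOn_psi (p := p) f g _
  rw [hL, hR]
  have key := sum_setIntegral_conj (X := ℍ) (μ := volume)
    (Γ := ((Gamma0 N).map (mapGL ℝ) : Subgroup 𝔾))
    (Γ₁ := ((stab p N ((0 : ZMod p) : OnePoint (ZMod p))).map (mapGL ℝ) : Subgroup 𝔾))
    (Γ₂ := ((stab p N (∞ : OnePoint (ZMod p))).map (mapGL ℝ) : Subgroup 𝔾))
    (heckeMatrix p 0) (Subgroup.map_mono (stab_le _)) (Subgroup.map_mono (stab_le _))
    (kerLE_map _ _ (neg_one_mem_stab N _)) (kerLE_map _ _ (neg_one_mem_stab N _))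
    (mem_stab_infty_iff_conj hpN) (isFundamentalDomain_fdN N)
    (isReps_of_transitive _ τ0 hτ0 hτ0x) (isReps_of_transitive _ τi hτi hτix)
    (petersson k f ((g : ℍ → ℂ) ∣[k] heckeDiagMatrix p))
    (fun γ hγ z => psi_invariant hpN f g hγ z)
    (fun x => by
      have := integrableOn_psi (p := p) f g
        (heckeMatrix p 0 * ((mapGL ℝ (τ0 x)⁻¹ : 𝔾))⁻¹)
      simpa only [mul_smul] using this)
    (fun y => integrableOn_psi (p := p) f g _)
  simp only [map_inv, inv_inv] at key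
  exact key.symm

end Adjoint

end Fermat.Agent.GS.Pet
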