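/-
CELL-S / GS-PETERSSON-REDUCED (helper83), file 7: **the Hecke algebra away from the level is
reduced**.

`isReduced_heckeAlgebra : (∀ q, q.Prime → q ∣ N → q ∈ S) → IsReduced (CuspForm.heckeAlgebra N k S)`

Every element of the algebra generated by the `T_ℓ`, `ℓ ∤ N`, is self-adjoint for the (definite)
Petersson inner product, so a nilpotent element vanishes.
-/
import Mathlib
import Fermat.Agent.GS.Pet.Adjoint
import Fermat.Prelude.Def_CuspForm_HeckeAlgebra

set_option autoImplicit false
set_option linter.unusedSectionVars false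

open CongruenceSubgroup ModularForm
open scoped ComplexConjugate

namespace Fermat.Agent.GS.Pet

variable {N : ℕ} [NeZero N] {k : ℤ} {S : Set ℕ}

theorem petInner_zero_right (f : CuspForm (Gamma0 N) k) : petInner f 0 = 0 := by
  have := petInner_smul_right (0 : ℂ) f 0
  rwa [zero_smul, zero_mul] at this

/-- every element of the Hecke algebra away from the level is self-adjoint -/
theorem petInner_heckeAlgebra_comm (hS : ∀ q : ℕ, q.Prime → q ∣ N → q ∈ S)
    {t : Module.End ℂ (CuspForm (Gamma0 N) k)} (ht : t ∈ CuspForm.heckeAlgebra N k S)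
    (f g : CuspForm (Gamma0 N) k) : petInner (t f) g = petInner f (t g) := by
  induction ht using Algebra.adjoin_induction generalizing f g with
  | mem x hx =>
    rcases hx with ⟨ℓ, hℓ, hℓN, -, rfl⟩ | ⟨q, hqN, hq, hqS, rfl⟩
    · exact petInner_heckeT_comm hℓ hℓN f g
    · exact absurd (hS q hq hqN) hqS
  | algebraMap r =>
    have h1 : ∀ h : CuspForm (Gamma0 N) k,
        (algebraMap ℤ (Module.End ℂ (CuspForm (Gamma0 N) k)) r) h = ((r : ℂ)) • h := by
      intro h
      rw [Algebra.algebraMap_eq_smul_one, LinearMap.smul_apply, Module.End.one_apply,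
        Int.cast_smul_eq_zsmul]
    rw [h1, h1, petInner_smul_left, petInner_smul_right, map_intCast]
  | add x y hx hy ihx ihy =>
    rw [LinearMap.add_apply, LinearMap.add_apply, petInner_add_left, petInner_add_right,
      ihx, ihy]
  | mul x y hx hy ihx ihy =>
    have hcomm : x * y = y * x := by
      have := mul_comm (⟨x, hx⟩ : CuspForm.heckeAlgebra N k S) ⟨y, hy⟩
      exact congrArg Subtype.val this
    rw [Module.End.mul_apply, ihx, ihy, ← Module.End.mul_apply, ← hcomm]

/-- **the Hecke algebra generated by the `T_ℓ`, `ℓ ∤ N`, is reduced** -/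
theorem isReduced_heckeAlgebra (N : ℕ) [NeZero N] (k : ℤ) (S : Set ℕ)
    (hS : ∀ q : ℕ, q.Prime → q ∣ N → q ∈ S) : IsReduced (CuspForm.heckeAlgebra N k S) := by
  rw [isReduced_iff_pow_one_lt 2 one_lt_two]
  intro x hx
  apply Subtype.ext
  apply LinearMap.ext
  intro f
  have hx2 : (x : Module.End ℂ (CuspForm (Gamma0 N) k)) * x = 0 := by
    have := congrArg Subtype.val hx
    simpa [pow_two] using this
  have h0 : petInner ((x : Module.End ℂ (CuspForm (Gamma0 N) k)) f)
      ((x : Module.End ℂ (CuspForm (Gamma0 N) k)) f) = 0 := by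
    rw [petInner_heckeAlgebra_comm hS x.2, ← Module.End.mul_apply, hx2, LinearMap.zero_apply,
      petInner_zero_right]
  exact eq_zero_of_petInner_self_eq_zero _ h0

end Fermat.Agent.GS.Pet
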