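/-
CELL-S / GS-PETERSSON-REDUCED, algebra half (helper57): `GS/Pet/DatumAlg.lean` with the finiteness
binder discharged by `S22` (on main).  The ONLY remaining binder is
`IsReduced (heckeAlgebra N 2 S)` = the Petersson output (helper83, `GS/Pet/Reduced.lean`).
-/
import Fermat.Agent.GS.Pet.DatumAlg
import Fermat.Agent.S22

set_option autoImplicit false

noncomputable section

namespace Fermat.Agent.GS.Pet.DatumS22

open CuspForm IsLocalRing Fermat.Agent.GS.Pet

variable {N : ℕ} [NeZero N] {S : Set ℕ}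
  {𝒪 : Type} [CommRing 𝒪] [IsDomain 𝒪] [IsDiscreteValuationRing 𝒪]
  [IsAdicComplete (maximalIdeal 𝒪) 𝒪] [CharZero 𝒪]
  {θ : heckeAlgebra N 2 S →+* ResidueField 𝒪}
  {T : Type} [CommRing T] [IsLocalRing T] [IsNoetherianRing T]
  [IsAdicComplete (maximalIdeal T) T] [Algebra 𝒪 T] [IsLocalHom (algebraMap 𝒪 T)]
  [Module.Finite 𝒪 T] [Module.Free 𝒪 T]

theorem isReduced_of_datum (hred : IsReduced (heckeAlgebra N 2 S))
    (H : HeckeGaloisRepDatum N S 𝒪 θ T) : IsReduced T :=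
  DatumAlg.isReduced_of_datum hred (Fermat.Agent.S22.result N 2 S) H

theorem exists_algHom_ne_zero (hred : IsReduced (heckeAlgebra N 2 S))
    (H : HeckeGaloisRepDatum N S 𝒪 θ T) {x : T} (hx : x ≠ 0) :
    ∃ χ : T →ₐ[𝒪] AlgebraicClosure (FractionRing 𝒪), χ x ≠ 0 :=
  DatumAlg.exists_algHom_ne_zero hred (Fermat.Agent.S22.result N 2 S) H hx

theorem eq_zero_of_forall_algHom (hred : IsReduced (heckeAlgebra N 2 S))
    (H : HeckeGaloisRepDatum N S 𝒪 θ T) {x : T}
    (hx : ∀ χ : T →ₐ[𝒪] AlgebraicClosure (FractionRing 𝒪), χ x = 0) : x = 0 :=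
  DatumAlg.eq_zero_of_forall_algHom hred (Fermat.Agent.S22.result N 2 S) H hx

end Fermat.Agent.GS.Pet.DatumS22
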