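/-
CELL-S / GS-PETERSSON-REDUCED (helper83 + helper57), final file: **the coefficient ring `T` of a
Hecke–Galois datum is reduced** as soon as `S` contains the primes dividing the level, and its
points in `K̄` (`K = Frac 𝒪`) separate its elements.

`GS/Pet/Reduced.lean` (Petersson: `IsReduced (heckeAlgebra N k S)`) plugged into helper57's
`GS/Pet/DatumS22.lean`.
-/
import Fermat.Agent.GS.Pet.Reduced
import Fermat.Agent.GS.Pet.DatumS22

set_option autoImplicit false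

noncomputable section

namespace Fermat.Agent.GS.Pet.Datum

open CuspForm IsLocalRing Fermat.Agent.GS.Pet

variable {N : ℕ} [NeZero N] {S : Set ℕ}
  {𝒪 : Type} [CommRing 𝒪] [IsDomain 𝒪] [IsDiscreteValuationRing 𝒪]
  [IsAdicComplete (maximalIdeal 𝒪) 𝒪] [CharZero 𝒪]
  {θ : heckeAlgebra N 2 S →+* ResidueField 𝒪}
  {T : Type} [CommRing T] [IsLocalRing T] [IsNoetherianRing T]
  [IsAdicComplete (maximalIdeal T) T] [Algebra 𝒪 T] [IsLocalHom (algebraMap 𝒪 T)]
  [Module.Finite 𝒪 T] [Module.Free 𝒪 T]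

/-- **`T` is reduced** -/
theorem isReduced_of_datum (hNS : ∀ q : ℕ, q.Prime → q ∣ N → q ∈ S)
    (H : HeckeGaloisRepDatum N S 𝒪 θ T) : IsReduced T :=
  DatumS22.isReduced_of_datum (isReduced_heckeAlgebra N 2 S hNS) H

/-- the `K̄`-points of `T` separate its elements -/
theorem exists_algHom_ne_zero (hNS : ∀ q : ℕ, q.Prime → q ∣ N → q ∈ S)
    (H : HeckeGaloisRepDatum N S 𝒪 θ T) {x : T} (hx : x ≠ 0) :
    ∃ χ : T →ₐ[𝒪] AlgebraicClosure (FractionRing 𝒪), χ x ≠ 0 :=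
  DatumS22.exists_algHom_ne_zero (isReduced_heckeAlgebra N 2 S hNS) H hx

theorem eq_zero_of_forall_algHom (hNS : ∀ q : ℕ, q.Prime → q ∣ N → q ∈ S)
    (H : HeckeGaloisRepDatum N S 𝒪 θ T) {x : T}
    (hx : ∀ χ : T →ₐ[𝒪] AlgebraicClosure (FractionRing 𝒪), χ x = 0) : x = 0 :=
  DatumS22.eq_zero_of_forall_algHom (isReduced_heckeAlgebra N 2 S hNS) H hx

end Fermat.Agent.GS.Pet.Datum
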