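/-
CELL-S / GS-PETERSSON-REDUCED (helper83), file 1: **abstract fundamental-domain calculus**.

`𝔾` a group acting on a measure space `X`, measurably and preserving `μ`.  For a subgroup `Γ ≤ 𝔾`
let `bar Γ ≤ Perm X` be its image in the permutations of `X` (the action of `Γ` itself need not be
faithful: `-1 ∈ SL₂(ℤ)` acts trivially on `ℍ`, so Mathlib's `IsFundamentalDomain` has to be stated
for the image).

* `isFundamentalDomain_iUnion_of_reps` : if `D` is a fundamental domain of `bar Γ`, `Γ' ≤ Γ`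
  contains the elements of `Γ` acting trivially and `Γ = ⨆ᵢ rᵢ Γ'` (disjoint), then
  `⋃ᵢ rᵢ⁻¹ • D` is a fundamental domain of `bar Γ'`;
* `setIntegral_iUnion_reps` : `∫_{⋃ rᵢ⁻¹ D} ψ = ∑ᵢ ∫_D ψ (rᵢ⁻¹ x)`;
* `sum_setIntegral_conj` : **the change of variables behind the adjointness of Hecke operators**:
  for `a ∈ 𝔾`, `Γ₂ = a Γ₁ a⁻¹`, both inside `Γ`, with coset representatives `rᵢ` of `Γ / Γ₁` and
  `sⱼ` of `Γ / Γ₂`, and `ψ` invariant under `Γ₂`:
  `∑ⱼ ∫_D ψ (sⱼ⁻¹ x) = ∑ᵢ ∫_D ψ (a rᵢ⁻¹ x)`.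
-/
import Mathlib

set_option autoImplicit false
set_option linter.unusedSectionVars false

open MeasureTheory Set Function
open scoped Pointwise

namespace Fermat.Agent.GS.Pet

section Bar

variable {𝔾 : Type*} (X : Type*) [Group 𝔾] [MulAction 𝔾 X]

/-- the image of a subgroup in the permutations of `X` -/
def bar (Γ : Subgroup 𝔾) : Subgroup (Equiv.Perm X) := Γ.map (MulAction.toPermHom 𝔾 X)

variable {X}

theorem mem_bar {Γ : Subgroup 𝔾} {g : Equiv.Perm X} :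
    g ∈ bar X Γ ↔ ∃ γ ∈ Γ, MulAction.toPerm γ = g := Subgroup.mem_map

theorem toPerm_mem_bar {Γ : Subgroup 𝔾} {γ : 𝔾} (hγ : γ ∈ Γ) :
    (MulAction.toPerm γ : Equiv.Perm X) ∈ bar X Γ := mem_bar.2 ⟨γ, hγ, rfl⟩

/-- the element of `bar Γ` attached to `γ ∈ Γ` -/
def barMk {Γ : Subgroup 𝔾} (γ : 𝔾) (hγ : γ ∈ Γ) : bar X Γ := ⟨MulAction.toPerm γ, toPerm_mem_bar hγ⟩

@[simp]
theorem barMk_smul {Γ : Subgroup 𝔾} (γ : 𝔾) (hγ : γ ∈ Γ) (x : X) :
    (barMk γ hγ : bar X Γ) • x = γ • x := rfl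

theorem barMk_smul_set {Γ : Subgroup 𝔾} (γ : 𝔾) (hγ : γ ∈ Γ) (s : Set X) :
    (barMk γ hγ : bar X Γ) • s = γ • s := rfl

theorem exists_rep_bar {Γ : Subgroup 𝔾} (g : bar X Γ) : ∃ γ, ∃ hγ : γ ∈ Γ, g = barMk γ hγ := by
  obtain ⟨γ, hγ, h⟩ := mem_bar.1 g.2
  exact ⟨γ, hγ, Subtype.ext h.symm⟩

theorem barMk_eq_one_iff {Γ : Subgroup 𝔾} (γ : 𝔾) (hγ : γ ∈ Γ) :
    (barMk γ hγ : bar X Γ) = 1 ↔ ∀ x : X, γ • x = x := by
  constructor
  · intro h x
    have := congrArg (fun g : bar X Γ => g • x) h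
    simpa using this
  · intro h
    apply Subtype.ext
    apply Equiv.ext
    intro x
    exact h x

theorem barMk_eq_barMk_iff {Γ : Subgroup 𝔾} (γ δ : 𝔾) (hγ : γ ∈ Γ) (hδ : δ ∈ Γ) :
    (barMk γ hγ : bar X Γ) = barMk δ hδ ↔ ∀ x : X, γ • x = δ • x := by
  constructor
  · intro h x
    have := congrArg (fun g : bar X Γ => g • x) h
    simpa using this
  · intro h
    apply Subtype.ext
    apply Equiv.ext
    intro x
    exact h x

instance countable_bar (Γ : Subgroup 𝔾) [Countable Γ] : Countable (bar X Γ) := by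
  have : Function.Surjective (fun γ : Γ => (barMk (γ : 𝔾) γ.2 : bar X Γ)) := by
    intro g
    obtain ⟨γ, hγ, rfl⟩ := exists_rep_bar g
    exact ⟨⟨γ, hγ⟩, rfl⟩
  exact this.countable

variable [MeasurableSpace X]

instance measurableConstSMul_bar [MeasurableConstSMul 𝔾 X] (Γ : Subgroup 𝔾) :
    MeasurableConstSMul (bar X Γ) X where
  measurable_const_smul g := by
    obtain ⟨γ, hγ, rfl⟩ := exists_rep_bar g
    exact measurable_const_smul γ

instance smulInvariantMeasure_bar (μ : Measure X) [SMulInvariantMeasure 𝔾 X μ] (Γ : Subgroup 𝔾) :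
    SMulInvariantMeasure (bar X Γ) X μ where
  measure_preimage_smul g s hs := by
    obtain ⟨γ, hγ, rfl⟩ := exists_rep_bar g
    exact SMulInvariantMeasure.measure_preimage_smul γ hs

end Bar

section Reps

variable {𝔾 X : Type*} [Group 𝔾] [MulAction 𝔾 X] [MeasurableSpace X] {μ : Measure X}
  [MeasurableConstSMul 𝔾 X] [SMulInvariantMeasure 𝔾 X μ]

/-- `r : ι → 𝔾` is a system of representatives of `Γ / Γ'` -/
structure IsReps (Γ Γ' : Subgroup 𝔾) {ι : Type*} (r : ι → 𝔾) : Prop where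
  mem : ∀ i, r i ∈ Γ
  exists_unique : ∀ g ∈ Γ, ∃! i, (r i)⁻¹ * g ∈ Γ'

/-- the elements of `Γ` acting trivially on `X` belong to `Γ'` -/
def KerLE (X : Type*) [MulAction 𝔾 X] (Γ Γ' : Subgroup 𝔾) : Prop :=
  ∀ g ∈ Γ, (∀ x : X, g • x = x) → g ∈ Γ'

variable {Γ Γ' : Subgroup 𝔾}

/-- the key combinatorial fact: if `u rᵢ⁻¹` and `rⱼ⁻¹` act in the same way, `u ∈ Γ'`, then `i = j`
and `u` acts trivially -/
theorem IsReps.eq_of_smul_eq {ι : Type*} {r : ι → 𝔾} (hr : IsReps Γ Γ' r) (hle : Γ' ≤ Γ)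
    (hK : KerLE X Γ Γ') {u : 𝔾} (hu : u ∈ Γ') {i j : ι}
    (h : ∀ x : X, (u * (r i)⁻¹) • x = (r j)⁻¹ • x) : i = j ∧ ∀ x : X, u • x = x := by
  -- `κ := r j * u * (r i)⁻¹` acts trivially
  have hκ : ∀ x : X, (r j * u * (r i)⁻¹) • x = x := by
    intro x
    rw [mul_assoc, mul_smul, h x, smul_inv_smul]
  -- `κ₂ := (r j)⁻¹ * κ * r j` acts trivially and lies in `Γ`
  have hκ2 : ∀ x : X, ((r j)⁻¹ * (r j * u * (r i)⁻¹) * r j) • x = x := by
    intro x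
    rw [mul_smul, mul_smul, hκ, inv_smul_smul]
  have hκ2Γ : (r j)⁻¹ * (r j * u * (r i)⁻¹) * r j ∈ Γ :=
    Γ.mul_mem (Γ.mul_mem (Γ.inv_mem (hr.mem j))
      (Γ.mul_mem (Γ.mul_mem (hr.mem j) (hle hu)) (Γ.inv_mem (hr.mem i)))) (hr.mem j)
  have hκ2Γ' := hK _ hκ2Γ hκ2
  -- `(r j)⁻¹ * r i = κ₂⁻¹ * u`
  have hji : (r j)⁻¹ * r i ∈ Γ' := by
    have e : (r j)⁻¹ * r i = ((r j)⁻¹ * (r j * u * (r i)⁻¹) * r j)⁻¹ * u := by group
    rw [e]
    exact Γ'.mul_mem (Γ'.inv_mem hκ2Γ') hu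
  have hii : (r i)⁻¹ * r i ∈ Γ' := by rw [inv_mul_cancel]; exact Γ'.one_mem
  have hij : i = j := (hr.exists_unique (r i) (hr.mem i)).unique hii hji
  refine ⟨hij, fun x => ?_⟩
  subst hij
  have := hκ (r i • x)
  rw [mul_smul, inv_smul_smul, mul_smul] at this
  exact smul_left_cancel (r i) this

theorem IsReps.injective {ι : Type*} {r : ι → 𝔾} (hr : IsReps Γ Γ' r) : Function.Injective r := by
  intro i j hij
  have hii : (r i)⁻¹ * r i ∈ Γ' := by rw [inv_mul_cancel]; exact Γ'.one_mem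
  have hji : (r j)⁻¹ * r i ∈ Γ' := by rw [← hij, inv_mul_cancel]; exact Γ'.one_mem
  exact (hr.exists_unique (r i) (hr.mem i)).unique hii hji

variable [Countable Γ]

/-- the translates `rᵢ⁻¹ • D` are pairwise a.e. disjoint -/
theorem IsReps.pairwise_aedisjoint {ι : Type*} {r : ι → 𝔾} (hr : IsReps Γ Γ' r) (hle : Γ' ≤ Γ)
    (hK : KerLE X Γ Γ') {D : Set X} (hD : IsFundamentalDomain (bar X Γ) D μ) :
    Pairwise (AEDisjoint μ on fun i => (r i)⁻¹ • D) := by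
  intro i j hij
  have hne : (barMk (r i)⁻¹ (Γ.inv_mem (hr.mem i)) : bar X Γ) ≠
      barMk (r j)⁻¹ (Γ.inv_mem (hr.mem j)) := by
    intro h
    rw [barMk_eq_barMk_iff] at h
    have := (hr.eq_of_smul_eq hle hK Γ'.one_mem (i := i) (j := j) (by simpa using h)).1
    exact hij this
  exact hD.aedisjoint hne

/-- **fundamental domains of subgroups** -/
theorem isFundamentalDomain_iUnion_of_reps {ι : Type*} [Countable ι] {r : ι → 𝔾}
    (hr : IsReps Γ Γ' r) (hle : Γ' ≤ Γ) (hK : KerLE X Γ Γ') {D : Set X}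
    (hD : IsFundamentalDomain (bar X Γ) D μ) :
    IsFundamentalDomain (bar X Γ') (⋃ i, (r i)⁻¹ • D) μ := by
  refine IsFundamentalDomain.mk'' ?_ ?_ ?_ ?_
  · exact NullMeasurableSet.iUnion fun i => hD.nullMeasurableSet.smul (r i)⁻¹
  · filter_upwards [hD.ae_covers] with x hx
    obtain ⟨g, hg⟩ := hx
    obtain ⟨γ, hγ, rfl⟩ := exists_rep_bar g
    obtain ⟨i, hi, -⟩ := hr.exists_unique γ hγ
    refine ⟨barMk ((r i)⁻¹ * γ) hi, ?_⟩
    rw [barMk_smul, mem_iUnion]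
    refine ⟨i, ?_⟩
    rw [mem_smul_set_iff_inv_smul_mem, inv_inv, ← mul_smul, mul_inv_cancel_left]
    exact hg
  · intro g hg
    obtain ⟨u, hu, rfl⟩ := exists_rep_bar g
    rw [barMk_smul_set, smul_set_iUnion]
    rw [AEDisjoint.iUnion_left_iff]
    intro i
    rw [AEDisjoint.iUnion_right_iff]
    intro j
    rw [smul_smul]
    have hne : (barMk (u * (r i)⁻¹) (Γ.mul_mem (hle hu) (Γ.inv_mem (hr.mem i))) : bar X Γ) ≠
        barMk (r j)⁻¹ (Γ.inv_mem (hr.mem j)) := by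
      intro h
      rw [barMk_eq_barMk_iff] at h
      have := (hr.eq_of_smul_eq hle hK hu h).2
      exact hg ((barMk_eq_one_iff u hu).2 this)
    exact hD.aedisjoint hne
  · intro g
    exact (measurePreserving_smul g μ).quasiMeasurePreserving

variable {E : Type*} [NormedAddCommGroup E] [NormedSpace ℝ E]

/-- `∫_{g • D} ψ = ∫_D ψ (g x)` -/
theorem setIntegral_smul_set (g : 𝔾) (D : Set X) (ψ : X → E) :
    ∫ x in g • D, ψ x ∂μ = ∫ x in D, ψ (g • x) ∂μ := by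
  rw [← image_smul]
  exact (measurePreserving_smul g μ).setIntegral_image_emb (measurableEmbedding_const_smul g) ψ D

theorem integrableOn_smul_set_iff (g : 𝔾) (D : Set X) (ψ : X → E) :
    IntegrableOn ψ (g • D) μ ↔ IntegrableOn (fun x => ψ (g • x)) D μ := by
  rw [← image_smul]
  exact (measurePreserving_smul g μ).integrableOn_image (measurableEmbedding_const_smul g)

/-- the integral over the fundamental domain `⋃ᵢ rᵢ⁻¹ D` of `Γ'` -/
theorem setIntegral_iUnion_reps {ι : Type*} [Fintype ι] {r : ι → 𝔾}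
    (hr : IsReps Γ Γ' r) (hle : Γ' ≤ Γ) (hK : KerLE X Γ Γ') {D : Set X}
    (hD : IsFundamentalDomain (bar X Γ) D μ) (ψ : X → E)
    (hψ : ∀ i, IntegrableOn (fun x => ψ ((r i)⁻¹ • x)) D μ) :
    ∫ x in ⋃ i, (r i)⁻¹ • D, ψ x ∂μ = ∑ i, ∫ x in D, ψ ((r i)⁻¹ • x) ∂μ := by
  have hint : IntegrableOn ψ (⋃ i, (r i)⁻¹ • D) μ := by
    rw [integrableOn_finite_iUnion]
    intro i
    rw [integrableOn_smul_set_iff]
    exact hψ i
  rw [integral_iUnion_ae (fun i => hD.nullMeasurableSet.smul (r i)⁻¹)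
    (hr.pairwise_aedisjoint hle hK hD) hint, tsum_fintype]
  exact Finset.sum_congr rfl fun i _ => setIntegral_smul_set _ _ _

end Reps

section Conj

variable {𝔾 X : Type*} [Group 𝔾] [MulAction 𝔾 X] [MeasurableSpace X] {μ : Measure X}
  [MeasurableConstSMul 𝔾 X] [SMulInvariantMeasure 𝔾 X μ]
  {E : Type*} [NormedAddCommGroup E] [NormedSpace ℝ E]

/-- the image under `a` of a fundamental domain of `bar Γ₁` is a fundamental domain of
`bar (a Γ₁ a⁻¹)` -/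
theorem isFundamentalDomain_smul_conj {Γ₁ Γ₂ : Subgroup 𝔾} (a : 𝔾)
    (h12 : ∀ g, g ∈ Γ₂ ↔ a⁻¹ * g * a ∈ Γ₁) {D : Set X}
    (hD : IsFundamentalDomain (bar X Γ₁) D μ) : IsFundamentalDomain (bar X Γ₂) (a • D) μ := by
  have hmem2 : ∀ g : bar X Γ₂, (MulAction.toPerm a : Equiv.Perm X)⁻¹ * (g : Equiv.Perm X) *
      MulAction.toPerm a ∈ bar X Γ₁ := by
    intro g
    obtain ⟨γ, hγ, rfl⟩ := exists_rep_bar g
    refine mem_bar.2 ⟨a⁻¹ * γ * a, (h12 γ).1 hγ, ?_⟩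
    ext x
    simp [barMk, mul_smul]
  have hmem1 : ∀ g : bar X Γ₁, (MulAction.toPerm a : Equiv.Perm X) * (g : Equiv.Perm X) *
      (MulAction.toPerm a)⁻¹ ∈ bar X Γ₂ := by
    intro g
    obtain ⟨γ, hγ, rfl⟩ := exists_rep_bar g
    refine mem_bar.2 ⟨a * γ * a⁻¹, (h12 _).2 (by simpa [mul_assoc] using hγ), ?_⟩
    ext x
    simp [barMk, mul_smul]
  let e : bar X Γ₂ ≃ bar X Γ₁ :=
    { toFun := fun g => ⟨_, hmem2 g⟩
      invFun := fun g => ⟨_, hmem1 g⟩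
      left_inv := fun g => by
        apply Subtype.ext
        simp [mul_assoc]
      right_inv := fun g => by
        apply Subtype.ext
        simp [mul_assoc] }
  have := hD.image_of_equiv (MulAction.toPerm a : Equiv.Perm X) (ν := μ)
    ((measurePreserving_smul a⁻¹ μ).quasiMeasurePreserving) e ?_
  · rwa [show (MulAction.toPerm a : Equiv.Perm X) '' D = a • D from image_smul] at this
  · intro g x
    obtain ⟨γ, hγ, rfl⟩ := exists_rep_bar g
    show a • (a⁻¹ • γ • a • x) = γ • a • x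
    rw [smul_inv_smul]

/-- **change of variables for conjugate subgroups**: `Γ₂ = a Γ₁ a⁻¹`, both inside `Γ`, with
representatives `rᵢ` of `Γ / Γ₁`, `sⱼ` of `Γ / Γ₂`, and `ψ` invariant under `Γ₂`. -/
theorem sum_setIntegral_conj {Γ Γ₁ Γ₂ : Subgroup 𝔾} [Countable Γ] (a : 𝔾)
    (h1 : Γ₁ ≤ Γ) (h2 : Γ₂ ≤ Γ) (hK1 : KerLE X Γ Γ₁) (hK2 : KerLE X Γ Γ₂)
    (h12 : ∀ g, g ∈ Γ₂ ↔ a⁻¹ * g * a ∈ Γ₁) {D : Set X}
    (hD : IsFundamentalDomain (bar X Γ) D μ)
    {ι κ : Type*} [Fintype ι] [Fintype κ] {r : ι → 𝔾} {s : κ → 𝔾}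
    (hr : IsReps Γ Γ₁ r) (hs : IsReps Γ Γ₂ s) (ψ : X → E)
    (hψ : ∀ g ∈ Γ₂, ∀ x, ψ (g • x) = ψ x)
    (hint1 : ∀ i, IntegrableOn (fun x => ψ (a • (r i)⁻¹ • x)) D μ)
    (hint2 : ∀ j, IntegrableOn (fun x => ψ ((s j)⁻¹ • x)) D μ) :
    ∑ j, ∫ x in D, ψ ((s j)⁻¹ • x) ∂μ = ∑ i, ∫ x in D, ψ (a • (r i)⁻¹ • x) ∂μ := by
  have : Countable Γ₁ := (Subgroup.inclusion_injective h1).countable
  have : Countable Γ₂ := (Subgroup.inclusion_injective h2).countable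
  have hD1 := isFundamentalDomain_iUnion_of_reps hr h1 hK1 hD
  have hD2 := isFundamentalDomain_iUnion_of_reps hs h2 hK2 hD
  have hD1a := isFundamentalDomain_smul_conj a h12 hD1
  rw [← setIntegral_iUnion_reps hs h2 hK2 hD ψ hint2]
  rw [← setIntegral_iUnion_reps hr h1 hK1 hD (fun x => ψ (a • x)) hint1]
  rw [← setIntegral_smul_set a _ ψ]
  refine hD2.setIntegral_eq hD1a ?_
  intro g x
  obtain ⟨γ, hγ, rfl⟩ := exists_rep_bar g
  exact hψ γ hγ x

end Conj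

end Fermat.Agent.GS.Pet
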